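import Fermat.Agent.EqDir.Proj
import Fermat.Agent.CFT.Count1

set_option autoImplicit false
set_option maxHeartbeats 400000
set_option linter.style.haveILetI false
set_option linter.unusedSectionVars false

/-! The equivariant `S`-unit theorem up to isogeny. -/

namespace Fermat.Agent.EqDir

open Fermat.Agent.CFT NumberField IsDedekindDomain WithZero

/-- a sign argument -/
theorem eq_zero_of_matrix {ι : Type*} [Fintype ι] (A : ι → ι → ℝ)
    (hneg : ∀ i j, i ≠ j → A i j < 0) (hsum : ∀ j, ∑ i, A i j = 0) (n : ι → ℝ)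
    (h0 : ∑ j, n j = 0) (hn : ∀ i, ∑ j, A i j * n j = 0) : n = 0 := by
  classical
  by_contra hne
  -- there is a positive and a nonpositive entry
  have hpos : ∃ i, 0 < n i := by
    by_contra hcon
    push Not at hcon
    apply hne
    funext i
    exact (Finset.sum_eq_zero_iff_of_nonpos fun j _ => hcon j).mp h0 i (Finset.mem_univ i)
  have hneg' : ∃ i, n i ≤ 0 := by
    by_contra hcon
    push Not at hcon
    obtain ⟨i, hi⟩ := hpos
    have : 0 < ∑ j, n j := Finset.sum_pos (fun j _ => hcon j) ⟨i, Finset.mem_univ i⟩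
    exact this.ne' h0
  let P : Finset ι := Finset.univ.filter fun i => 0 < n i
  have hmem : ∀ i, i ∈ P ↔ 0 < n i := fun i => by simp [P]
  have h1 : ∑ i ∈ P, ∑ j, A i j * n j = 0 := Finset.sum_eq_zero fun i _ => hn i
  rw [Finset.sum_comm] at h1
  have h2 : ∀ j, 0 ≤ ∑ i ∈ P, A i j * n j := by
    intro j
    rw [← Finset.sum_mul]
    by_cases hj : 0 < n j
    · refine mul_nonneg ?_ hj.le
      have h3 : ∑ i ∈ P, A i j = -∑ i ∈ Pᶜ, A i j := by
        rw [eq_neg_iff_add_eq_zero, Finset.sum_add_sum_compl, hsum]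
      rw [h3, neg_nonneg]
      refine Finset.sum_nonpos fun i hi => ?_
      have hij : i ≠ j := by
        rintro rfl
        rw [Finset.mem_compl, hmem] at hi
        exact hi hj
      exact (hneg i j hij).le
    · refine mul_nonneg_of_nonpos_of_nonpos ?_ (not_lt.mp hj)
      refine Finset.sum_nonpos fun i hi => ?_
      have hij : i ≠ j := by
        rintro rfl
        exact hj ((hmem i).mp hi)
      exact (hneg i j hij).le
  obtain ⟨j, hj⟩ := hpos
  obtain ⟨k, hk⟩ := hneg'
  have h3 : 0 < ∑ i ∈ P, A i j * n j := by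
    rw [← Finset.sum_mul]
    refine mul_pos ?_ hj
    have h3 : ∑ i ∈ P, A i j = -∑ i ∈ Pᶜ, A i j := by
      rw [eq_neg_iff_add_eq_zero, Finset.sum_add_sum_compl, hsum]
    rw [h3, neg_pos]
    refine Finset.sum_neg (fun i hi => ?_) ⟨k, ?_⟩
    · have hij : i ≠ j := by
        rintro rfl
        rw [Finset.mem_compl, hmem] at hi
        exact hi hj
      exact hneg i j hij
    · rw [Finset.mem_compl, hmem]
      exact not_lt.mpr hk
  have h4 : 0 < ∑ j, ∑ i ∈ P, A i j * n j :=
    Finset.sum_pos' (fun j _ => h2 j) ⟨j, Finset.mem_univ j, h3⟩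
  exact h4.ne' h1

/-- functions on a `G`-set -/
def PFun (P A : Type*) : Type _ := P → A

instance (P A : Type*) [AddCommGroup A] : AddCommGroup (PFun P A) :=
  inferInstanceAs (AddCommGroup (P → A))

instance (P A G : Type*) [AddCommGroup A] [Group G] [MulAction G P] :
    DistribMulAction G (PFun P A) where
  smul g f := fun w => f (g⁻¹ • w)
  one_smul f := by
    funext w
    show f ((1 : G)⁻¹ • w) = f w
    rw [inv_one, one_smul]
  mul_smul g h f := by
    funext w
    show f ((g * h)⁻¹ • w) = f (h⁻¹ • g⁻¹ • w)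
    rw [mul_inv_rev, mul_smul]
  smul_zero g := rfl
  smul_add g f f' := rfl

theorem PFun.smul_apply {P A G : Type*} [AddCommGroup A] [Group G] [MulAction G P] (g : G)
    (f : PFun P A) (w : P) : (g • f) w = f (g⁻¹ • w) := rfl

section Iso

variable {P : Type*} [Fintype P] {G : Type*} [Group G] [Fintype G] [MulAction G P]
variable {U : Type*} [AddCommGroup U] [DistribMulAction G U]

/-- averaging -/
def avg (u : P → U) (x : P) : U := ∑ g : G, g⁻¹ • u (g • x)

theorem smul_avg (u : P → U) (x : P) (h : G) : h • avg (G := G) u x = avg (G := G) u (h • x) := by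
  unfold avg
  rw [Finset.smul_sum, ← Equiv.sum_comp (Equiv.mulRight h)]
  refine Finset.sum_congr rfl fun g _ => ?_
  rw [Equiv.coe_mulRight, mul_inv_rev, mul_smul, smul_inv_smul, mul_smul]

/-- the equivariant map attached to a family -/
def avgMap (u : P → U) : PFun P ℤ →+ U where
  toFun f := ∑ x, f x • avg (G := G) u x
  map_zero' := Finset.sum_eq_zero fun x _ => zero_smul ℤ _
  map_add' f f' := by
    rw [← Finset.sum_add_distrib]
    exact Finset.sum_congr rfl fun x _ => add_smul (f x) (f' x) _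

theorem avgMap_smul (u : P → U) (g : G) (f : PFun P ℤ) :
    avgMap (G := G) u (g • f) = g • avgMap (G := G) u f := by
  show ∑ x, f (g⁻¹ • x) • avg (G := G) u x = g • ∑ x, f x • avg (G := G) u x
  rw [Finset.smul_sum, ← Equiv.sum_comp (MulAction.toPerm g)]
  refine Finset.sum_congr rfl fun x _ => ?_
  rw [MulAction.toPerm_apply, inv_smul_smul, ← smul_avg]
  exact (smul_comm _ _ _)

end Iso

/-- trivial action -/
def Triv (A : Type*) : Type _ := A

instance (A : Type*) [AddCommGroup A] : AddCommGroup (Triv A) := inferInstanceAs (AddCommGroup A)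

instance (A G : Type*) [AddCommGroup A] [Group G] : DistribMulAction G (Triv A) where
  smul _ a := a
  one_smul _ := rfl
  mul_smul _ _ _ := rfl
  smul_zero _ := rfl
  smul_add _ _ _ := rfl

theorem Triv.smul_eq {A G : Type*} [AddCommGroup A] [Group G] (g : G) (a : Triv A) : g • a = a :=
  rfl

/-- `S`-units of a number field with a group action -/
structure SData (K G U : Type*) [Field K] [NumberField K] [Group G] [MulSemiringAction G K]
    [AddCommGroup U] [DistribMulAction G U] (Sf : Set (HeightOneSpectrum (𝓞 K)))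
    [MulAction G Sf] [MulAction G (InfinitePlace K)] where
  /-- the embedding -/
  j : U →+ Additive Kˣ
  inj : Function.Injective j
  smul : ∀ (g : G) (u : U), ((j (g • u)).toMul : K) = g • ((j u).toMul : K)
  range : ∀ x : Kˣ, (∃ u, j u = Additive.ofMul x) ↔ ∀ v ∉ Sf, v.valuation K (x : K) = 1
  hf : ∀ (g : G) (v : Sf) (x : K), (g • v).1.valuation K (g • x) = v.1.valuation K x
  hi : ∀ (g : G) (w : InfinitePlace K) (x : K), (g • w) (g • x) = w x

namespace SData

variable {K G U : Type*} [Field K] [NumberField K] [Group G] [MulSemiringAction G K]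
    [AddCommGroup U] [DistribMulAction G U] {Sf : Set (HeightOneSpectrum (𝓞 K))}
    [MulAction G Sf] [MulAction G (InfinitePlace K)] (D : SData K G U Sf)

/-- the value in `K` -/
def val (u : U) : K := ((D.j u).toMul : K)

theorem val_ne (u : U) : D.val u ≠ 0 := Units.ne_zero _

theorem val_add (u v : U) : D.val (u + v) = D.val u * D.val v := by
  show (((D.j (u + v)).toMul : Kˣ) : K) = _
  rw [map_add]; rfl

theorem val_zero : D.val 0 = 1 := by
  show (((D.j 0).toMul : Kˣ) : K) = _
  rw [map_zero]; rfl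

theorem val_smul (g : G) (u : U) : D.val (g • u) = g • D.val u := D.smul g u

/-- order at a prime -/
noncomputable def ov (v : HeightOneSpectrum (𝓞 K)) : U →+ ℤ where
  toFun u := -(WithZero.log (v.valuation K (D.val u)))
  map_zero' := by rw [val_zero, map_one]; simp
  map_add' a b := by
    rw [val_add, map_mul, WithZero.log_mul, neg_add]
    · exact (Valuation.ne_zero_iff _).mpr (D.val_ne a)
    · exact (Valuation.ne_zero_iff _).mpr (D.val_ne b)

theorem ov_apply (v : HeightOneSpectrum (𝓞 K)) (u : U) :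
    D.ov v u = -(WithZero.log (v.valuation K (D.val u))) := rfl

theorem ov_eq {v : HeightOneSpectrum (𝓞 K)} {u : U} {n : ℤ}
    (h : v.valuation K (D.val u) = exp (-n)) : D.ov v u = n := by
  rw [ov_apply, h, WithZero.log_exp, neg_neg]

theorem valuation_eq_one {v : HeightOneSpectrum (𝓞 K)} {u : U} (h : D.ov v u = 0) :
    v.valuation K (D.val u) = 1 := by
  rw [ov_apply, neg_eq_zero] at h
  have h1 : v.valuation K (D.val u) ≠ 0 := (Valuation.ne_zero_iff _).mpr (D.val_ne u)
  rw [← WithZero.exp_log h1, h, WithZero.exp_zero]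

theorem ov_smul (g : G) (v : Sf) (u : U) : D.ov (g • v).1 (g • u) = D.ov v.1 u := by
  rw [ov_apply, ov_apply, val_smul, D.hf]

/-- logarithm at an infinite place -/
noncomputable def lg (w : InfinitePlace K) : U →+ ℝ where
  toFun u := Real.log (w (D.val u))
  map_zero' := by rw [val_zero, map_one, Real.log_one]
  map_add' a b := by
    rw [val_add, map_mul, Real.log_mul]
    · exact (map_ne_zero w).mpr (D.val_ne a)
    · exact (map_ne_zero w).mpr (D.val_ne b)

theorem lg_apply (w : InfinitePlace K) (u : U) : D.lg w u = Real.log (w (D.val u)) := rfl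

theorem lg_smul (g : G) (w : InfinitePlace K) (u : U) : D.lg (g • w) (g • u) = D.lg w u := by
  rw [lg_apply, lg_apply, val_smul, D.hi]

/-- the unit attached to an element with trivial valuations -/
theorem exists_unit {u : U} (h : ∀ v : Sf, D.ov v.1 u = 0) :
    ∃ x : (𝓞 K)ˣ, ((x : 𝓞 K) : K) = D.val u := by
  have h1 : ∀ v : HeightOneSpectrum (𝓞 K), v.valuation K (D.val u) = 1 := by
    intro v
    by_cases hv : v ∈ Sf
    · exact D.valuation_eq_one (h ⟨v, hv⟩)
    · exact (D.range (D.j u).toMul).mp ⟨u, rfl⟩ v hv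
  obtain ⟨a, ha⟩ := HeightOneSpectrum.mem_integers_of_valuation_le_one K (D.val u)
    (fun v => (h1 v).le)
  obtain ⟨b, hb⟩ := HeightOneSpectrum.mem_integers_of_valuation_le_one K (D.val u)⁻¹
    (fun v => by rw [map_inv₀, h1, inv_one])
  have hab : a * b = 1 := by
    apply FaithfulSMul.algebraMap_injective (𝓞 K) K
    rw [map_mul, ha, hb, map_one, mul_inv_cancel₀ (D.val_ne u)]
  exact ⟨⟨a, b, hab, by rw [mul_comm, hab]⟩, ha⟩

theorem exists_of_unit (x : (𝓞 K)ˣ) : ∃ u : U, D.val u = ((x : 𝓞 K) : K) := by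
  have h := (D.range (Units.map (algebraMap (𝓞 K) K).toMonoidHom x)).mpr (by
    intro v _
    have h1 : v.valuation K (algebraMap (𝓞 K) K (x : 𝓞 K)) ≤ 1 := v.valuation_le_one _
    have h2 : v.valuation K (algebraMap (𝓞 K) K ((x⁻¹ : (𝓞 K)ˣ) : 𝓞 K)) ≤ 1 := v.valuation_le_one _
    have h3 : v.valuation K (algebraMap (𝓞 K) K (x : 𝓞 K)) *
        v.valuation K (algebraMap (𝓞 K) K ((x⁻¹ : (𝓞 K)ˣ) : 𝓞 K)) = 1 := by
      rw [← map_mul, ← map_mul, Units.mul_inv, map_one, map_one]
    exact le_antisymm h1 (by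
      rw [← h3]
      exact mul_le_of_le_one_right' h2))
  obtain ⟨u, hu⟩ := h
  exact ⟨u, congrArg (fun y : Additive Kˣ => ((y.toMul : Kˣ) : K)) hu⟩

end SData

end Fermat.Agent.EqDir
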