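import Fermat.Agent.EqDir.Higman

set_option autoImplicit false
set_option maxHeartbeats 400000
set_option linter.style.haveILetI false
set_option linter.unusedSectionVars false

/-! Abstract reduction of the Euler characteristic formula to projective modules. -/

namespace Fermat.Agent.EqDir

open Fermat.Agent.CFT

/-- the action on a quotient by a stable subgroup -/
@[instance_reducible] def quotMod {B W : Type*} [Group B] [AddCommGroup W] [DistribMulAction B W] (W₁ : AddSubgroup W)
    (h : ∀ (b : B), ∀ w ∈ W₁, b • w ∈ W₁) : DistribMulAction B (W ⧸ W₁) where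
  smul b x := QuotientAddGroup.map W₁ W₁ (DistribSMul.toAddMonoidHom W b)
    (fun w hw => h b w hw) x
  one_smul x := by
    obtain ⟨w, rfl⟩ := QuotientAddGroup.mk'_surjective _ x
    exact congrArg (QuotientAddGroup.mk' W₁) (one_smul B w)
  mul_smul b c x := by
    obtain ⟨w, rfl⟩ := QuotientAddGroup.mk'_surjective _ x
    exact congrArg (QuotientAddGroup.mk' W₁) (mul_smul b c w)
  smul_zero b := map_zero _
  smul_add b x y := map_add _ _ _

section coind

variable {B G : Type*} [Group B] [Group G] (ι : B →* G)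
variable {A W C : Type*} [AddCommGroup A] [DistribMulAction B A] [AddCommGroup W]
  [DistribMulAction B W] [AddCommGroup C] [DistribMulAction B C]

/-- functoriality of coinduction -/
def coindMap (φ : A →+ W) (h : ∀ (b : B) a, φ (b • a) = b • φ a) : CoInd ι A →+ CoInd ι W where
  toFun f := ⟨fun g => φ (f.1 g), fun d g => by
    show φ (f.1 (ι d * g)) = d • φ (f.1 g)
    rw [f.2, h]⟩
  map_zero' := Subtype.ext (funext fun g => map_zero φ)
  map_add' f f' := Subtype.ext (funext fun g => map_add φ _ _)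

theorem coindMap_smul (φ : A →+ W) (h : ∀ (b : B) a, φ (b • a) = b • φ a) (g : G)
    (f : CoInd ι A) : coindMap ι φ h (g • f) = g • coindMap ι φ h f := rfl

theorem coindMap_injective (φ : A →+ W) (h : ∀ (b : B) a, φ (b • a) = b • φ a)
    (hφ : Function.Injective φ) : Function.Injective (coindMap ι φ h) := by
  intro f f' hff
  apply Subtype.ext
  funext g
  exact hφ (congrFun (congrArg Subtype.val hff) g)

theorem coindMap_surjective (hι : Function.Injective ι) (φ : A →+ W)
    (h : ∀ (b : B) a, φ (b • a) = b • φ a)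
    (hφ : Function.Surjective φ) : Function.Surjective (coindMap ι φ h) := by
  intro f
  obtain ⟨ρ, hρ⟩ := exists_retraction ι hι
  choose s hs using hφ
  refine ⟨⟨fun g => ρ g • s (f.1 ((ι (ρ g))⁻¹ * g)), fun d g => ?_⟩, ?_⟩
  · beta_reduce
    rw [hρ, mul_smul]
    congr 3
    rw [map_mul]
    group
  · apply Subtype.ext
    funext g
    show φ (ρ g • s (f.1 ((ι (ρ g))⁻¹ * g))) = f.1 g
    rw [h, hs, ← f.2, mul_inv_cancel_left]

theorem coindMap_exact (i : A →+ W) (π : W →+ C) (hi : ∀ (b : B) a, i (b • a) = b • i a)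
    (hπ : ∀ (b : B) a, π (b • a) = b • π a) (hinj : Function.Injective i)
    (hex : ∀ w, π w = 0 ↔ ∃ a, i a = w) (f : CoInd ι W) :
    coindMap ι π hπ f = 0 ↔ ∃ a, coindMap ι i hi a = f := by
  constructor
  · intro hf
    have h1 : ∀ g, ∃ a, i a = f.1 g := fun g =>
      (hex _).mp (congrFun (congrArg Subtype.val hf) g)
    choose a ha using h1
    refine ⟨⟨a, fun d g => hinj ?_⟩, Subtype.ext (funext ha)⟩
    rw [ha, hi, ha, f.2]
  · rintro ⟨a, rfl⟩
    apply Subtype.ext
    funext g
    exact (hex _).mpr ⟨a.1 g, rfl⟩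

end coind

section embed

variable {G W : Type*} [Group G] [AddCommGroup W] [DistribMulAction G W] {p : ℕ}
  [hp : Fact p.Prime]

theorem exists_embedding_aux [Finite W] [Module (ZMod p) W] : ∃ (m : ℕ) (i : W →+ FM G m p),
    Function.Injective i ∧ ∀ (g : G) w, i (g • w) = g • i w := by
  haveI : Module.Finite (ZMod p) W := Module.Finite.of_finite
  let b := Module.finBasis (ZMod p) W
  refine ⟨Module.finrank (ZMod p) W,
    { toFun := fun w j g => b.equivFun (g⁻¹ • w) j
      map_zero' := by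
        funext j g
        show b.equivFun (g⁻¹ • 0) j = 0
        rw [smul_zero, map_zero]; rfl
      map_add' := fun x y => by
        funext j g
        show b.equivFun (g⁻¹ • (x + y)) j = b.equivFun (g⁻¹ • x) j + b.equivFun (g⁻¹ • y) j
        rw [smul_add, map_add, Pi.add_apply] }, ?_, ?_⟩
  · intro x y hxy
    apply b.equivFun.injective
    funext j
    have h1 : b.equivFun ((1 : G)⁻¹ • x) j = b.equivFun ((1 : G)⁻¹ • y) j :=
      congrFun (congrFun hxy j) 1
    rwa [inv_one, one_smul, one_smul] at h1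
  · intro g w
    funext j h
    show b.equivFun (h⁻¹ • g • w) j = b.equivFun ((g⁻¹ * h)⁻¹ • w) j
    rw [mul_inv_rev, inv_inv, mul_smul]

theorem exists_embedding [Finite W] (hW : ∀ w : W, p • w = 0) : ∃ (m : ℕ) (i : W →+ FM G m p),
    Function.Injective i ∧ ∀ (g : G) w, i (g • w) = g • i w := by
  letI : Module (ZMod p) W := AddCommGroup.zmodModule hW
  exact exists_embedding_aux

end embed

/-- the data of an Euler characteristic defect -/
structure EulerData (G : Type) [Group G] [Finite G] (p : ℕ) [Fact p.Prime] (B P : Subgroup G) where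
  /-- the defect -/
  δ : ∀ (M : Type) [AddCommGroup M] [DistribMulAction G M], ℚ
  pos : ∀ (M : Type) [AddCommGroup M] [DistribMulAction G M] [Finite M], (∀ x : M, p • x = 0) →
    0 < δ M
  sub : ∀ (A M C : Type) [AddCommGroup A] [DistribMulAction G A] [AddCommGroup M]
    [DistribMulAction G M] [AddCommGroup C] [DistribMulAction G C] [Finite A] [Finite M] [Finite C]
    (i : A →+ M) (π : M →+ C), (∀ x : M, p • x = 0) → (∀ (g : G) x, i (g • x) = g • i x) →
    (∀ (g : G) x, π (g • x) = g • π x) → Function.Injective i → Function.Surjective π →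
    (∀ x, π x = 0 ↔ ∃ a, i a = x) → δ M ≤ δ A * δ C
  free : ∀ m : ℕ, 1 ≤ δ (FM G m p)
  proj : ∀ (X : Type) [AddCommGroup X] [DistribMulAction G X] [Finite X], (∀ x : X, p • x = 0) →
    IsPr G p X → δ X ≤ 1
  ind : ∀ (W : Type) [AddCommGroup W] [DistribMulAction B W] [Finite W], (∀ x : W, p • x = 0) →
    (∀ (b : B), (b : G) ∈ P → ∀ w : W, b • w = w) → δ (CoInd B.subtype W) ≤ 1

namespace EulerData

variable {G : Type} [Group G] [Finite G] {p : ℕ} [hp : Fact p.Prime] {B P : Subgroup G}
  (D : EulerData G p B P)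

theorem isPr_punit : IsPr G p PUnit := by
  refine ⟨0, 0, 0, fun g x => ?_, fun g f => ?_, fun x => rfl⟩
  · funext i; exact i.elim0
  · rfl

include D in
theorem le_of_iso {A M : Type} [AddCommGroup A] [DistribMulAction G A] [AddCommGroup M]
    [DistribMulAction G M] [Finite A] [Finite M] (i : A →+ M) (hM : ∀ x : M, p • x = 0)
    (hA : ∀ x : A, p • x = 0)
    (h : ∀ (g : G) x, i (g • x) = g • i x) (hi : Function.Bijective i) : D.δ M ≤ D.δ A := by
  have h1 := D.sub A M PUnit i 0 hM h (fun g x => rfl) hi.1 (fun y => ⟨0, rfl⟩)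
    (fun x => ⟨fun _ => hi.2 x, fun _ => rfl⟩)
  have h2 := D.proj PUnit (fun x => rfl) isPr_punit
  have h3 := D.pos A hA
  calc D.δ M ≤ D.δ A * D.δ PUnit := h1
    _ ≤ D.δ A * 1 := by gcongr
    _ = D.δ A := mul_one _

instance {W : Type} [AddCommGroup W] [DistribMulAction B W] [Finite W] :
    Finite (CoInd B.subtype W) := inferInstance

theorem coind_p {W : Type} [AddCommGroup W] [DistribMulAction B W] (hW : ∀ x : W, p • x = 0)
    (f : CoInd B.subtype W) : p • f = 0 :=
  Subtype.ext (funext fun g => hW (f.1 g))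

include D in
/-- all induced modules have defect at most one -/
theorem ind_le (hPB : ∀ (b : B), ∀ x ∈ P, (b : G) * x * (b : G)⁻¹ ∈ P) (hPp : IsPGroup p P)
    (_hle : P ≤ B) :
    ∀ (n : ℕ) (W : Type) [AddCommGroup W] [DistribMulAction B W] [Finite W],
      (∀ x : W, p • x = 0) → Nat.card W ≤ n → D.δ (CoInd B.subtype W) ≤ 1 := by
  classical
  intro n
  induction n with
  | zero =>
    intro W _ _ _ hW hn
    exact absurd (Nat.card_pos (α := W)) (by omega)
  | succ n ih =>
    intro W _ _ _ hW hn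
    by_cases htriv : Subsingleton W
    · exact D.ind W hW fun b _ w => Subsingleton.elim _ _
    -- the fixed points of `P`
    let W₁ : AddSubgroup W :=
      { carrier := {w | ∀ b : B, (b : G) ∈ P → b • w = w}
        zero_mem' := fun b _ => smul_zero b
        add_mem' := fun {x y} hx hy b hb => by rw [smul_add, hx b hb, hy b hb]
        neg_mem' := fun {x} hx b hb => by rw [smul_neg, hx b hb] }
    have hst : ∀ (b : B), ∀ w ∈ W₁, b • w ∈ W₁ := by
      intro b w hw c hc
      have h1 : (b⁻¹ * c * b) • w = w := hw _ (by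
        have := hPB b⁻¹ c hc
        simpa using this)
      calc c • b • w = b • ((b⁻¹ * c * b) • w) := by
            rw [smul_smul, smul_smul]; congr 1; group
        _ = b • w := by rw [h1]
    have hne : ∃ w ∈ W₁, w ≠ 0 := by
      let P' : Subgroup B := P.subgroupOf B
      have hP' : IsPGroup p P' := hPp.comap_of_injective B.subtype B.subtype_injective
      haveI : Nontrivial W := not_subsingleton_iff_nontrivial.mp htriv
      have h1 := hP'.card_modEq_card_fixedPoints W
      obtain ⟨k, hk⟩ := exists_card_eq_pow hW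
      have hk0 : k ≠ 0 := by
        rintro rfl
        rw [pow_zero, Nat.card_eq_one_iff_unique] at hk
        exact htriv hk.1
      have h2 : p ∣ Nat.card (MulAction.fixedPoints P' W) := by
        have h3 : p ∣ Nat.card W := by rw [hk]; exact dvd_pow_self p hk0
        exact (Nat.modEq_zero_iff_dvd.mp (h1.symm.trans (Nat.modEq_zero_iff_dvd.mpr h3)))
      have h4 : (0 : W) ∈ MulAction.fixedPoints P' W := fun b => smul_zero _
      have h5 : 1 < Nat.card (MulAction.fixedPoints P' W) := by
        have h6 : 0 < Nat.card (MulAction.fixedPoints P' W) := by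
          haveI : Nonempty (MulAction.fixedPoints P' W) := ⟨⟨0, h4⟩⟩
          exact Nat.card_pos
        exact lt_of_lt_of_le hp.out.one_lt (Nat.le_of_dvd h6 h2)
      haveI := Fintype.ofFinite (MulAction.fixedPoints P' W)
      rw [Nat.card_eq_fintype_card] at h5
      obtain ⟨⟨w, hw⟩, hw'⟩ := Fintype.exists_ne_of_one_lt_card h5 ⟨0, h4⟩
      refine ⟨w, fun b hb => hw ⟨b, hb⟩, fun h0 => hw' (Subtype.ext h0)⟩
    letI : DistribMulAction B (W ⧸ W₁) := quotMod W₁ hst
    letI : DistribMulAction B W₁ :=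
      { smul := fun b w => ⟨b • w.1, hst b w.1 w.2⟩
        one_smul := fun w => Subtype.ext (one_smul B w.1)
        mul_smul := fun b c w => Subtype.ext (mul_smul b c w.1)
        smul_zero := fun b => Subtype.ext (smul_zero b)
        smul_add := fun b w w' => Subtype.ext (smul_add b w.1 w'.1) }
    have hπ : ∀ (b : B) (w : W), QuotientAddGroup.mk' W₁ (b • w) = b • QuotientAddGroup.mk' W₁ w :=
      fun b w => rfl
    have hi : ∀ (b : B) (w : W₁), W₁.subtype (b • w) = b • W₁.subtype w := fun b w => rfl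
    have hW1 : ∀ x : W₁, p • x = 0 := fun x => Subtype.ext (hW x)
    have hW2 : ∀ x : W ⧸ W₁, p • x = 0 := by
      intro x
      obtain ⟨w, rfl⟩ := QuotientAddGroup.mk'_surjective _ x
      rw [← map_nsmul, hW, map_zero]
    have hcard : Nat.card (W ⧸ W₁) ≤ n := by
      have h1 : Nat.card W₁ * Nat.card (W ⧸ W₁) = Nat.card W := AddSubgroup.card_mul_index W₁
      have h2 : 1 < Nat.card W₁ := by
        obtain ⟨w, hw, hw0⟩ := hne
        haveI : Nontrivial W₁ := ⟨⟨⟨w, hw⟩, 0, fun h => hw0 (congrArg Subtype.val h)⟩⟩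
        exact Finite.one_lt_card
      have h3 : 0 < Nat.card (W ⧸ W₁) := Nat.card_pos
      nlinarith
    have h1 := D.sub (CoInd B.subtype W₁) (CoInd B.subtype W) (CoInd B.subtype (W ⧸ W₁))
      (coindMap B.subtype W₁.subtype hi) (coindMap B.subtype (QuotientAddGroup.mk' W₁) hπ)
      (coind_p hW) (fun g x => rfl) (fun g x => rfl)
      (coindMap_injective _ _ _ W₁.subtype_injective)
      (coindMap_surjective _ B.subtype_injective _ _ (QuotientAddGroup.mk'_surjective _))
      (coindMap_exact _ _ _ hi hπ W₁.subtype_injective (fun w => by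
        rw [QuotientAddGroup.mk'_apply, QuotientAddGroup.eq_zero_iff]
        exact ⟨fun h => ⟨⟨w, h⟩, rfl⟩, fun ⟨a, ha⟩ => ha ▸ a.2⟩))
    have h2 := D.ind W₁ hW1 (fun b hb w => Subtype.ext (w.2 b hb))
    have h3 := ih (W ⧸ W₁) hW2 hcard
    have h4 := D.pos (CoInd B.subtype (W ⧸ W₁)) (coind_p hW2)
    calc _ ≤ _ := h1
      _ ≤ 1 * 1 := by gcongr
      _ = 1 := mul_one 1

/-- coinduction of free modules -/
def coindFM (m : ℕ) : CoInd B.subtype (FM B m p) →+ FM G m p where
  toFun F := fun i g => F.1 g⁻¹ i 1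
  map_zero' := rfl
  map_add' _ _ := rfl

theorem coindFM_smul (m : ℕ) (g : G) (F : CoInd B.subtype (FM B m p)) :
    coindFM m (g • F) = g • coindFM m F := by
  funext i h
  show F.1 (h⁻¹ * g) i 1 = F.1 (g⁻¹ * h)⁻¹ i 1
  rw [mul_inv_rev, inv_inv]

theorem coindFM_bijective (m : ℕ) : Function.Bijective (coindFM (B := B) (p := p) m) := by
  constructor
  · intro F F' h
    apply Subtype.ext
    funext g i b
    have h1 : ∀ (F : CoInd B.subtype (FM B m p)), F.1 g i b = F.1 ((b : G)⁻¹ * g) i 1 := by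
      intro F
      have h2 := congrFun (congrFun (F.2 b⁻¹ g) i) 1
      have h3 : (b⁻¹ • F.1 g) i 1 = F.1 g i b := by
        rw [FM.smul_apply, inv_inv, mul_one]
      rw [← h3, ← h2]
      rfl
    rw [h1, h1]
    have h4 := congrFun (congrFun h i) (g⁻¹ * b)
    have h5 : ∀ (F : CoInd B.subtype (FM B m p)),
        coindFM m F i (g⁻¹ * b) = F.1 ((b : G)⁻¹ * g) i 1 := by
      intro F
      show F.1 (g⁻¹ * b)⁻¹ i 1 = _
      rw [mul_inv_rev, inv_inv]
    rwa [h5, h5] at h4
  · intro f
    refine ⟨⟨fun g i b => f i (g⁻¹ * b), fun d g => ?_⟩, ?_⟩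
    · funext i b
      show f i (((d : G) * g)⁻¹ * b) = f i (g⁻¹ * ((d⁻¹ * b : B) : G))
      rw [mul_inv_rev, mul_assoc]
      rfl
    · funext i g
      show f i ((g⁻¹)⁻¹ * ((1 : B) : G)) = f i g
      rw [inv_inv, Subgroup.coe_one, mul_one]

include D in
/-- all induced modules have defect one -/
theorem ind_ge (hPB : ∀ (b : B), ∀ x ∈ P, (b : G) * x * (b : G)⁻¹ ∈ P) (hPp : IsPGroup p P)
    (hle : P ≤ B) (W : Type) [AddCommGroup W] [DistribMulAction B W] [Finite W]
    (hW : ∀ x : W, p • x = 0) : 1 ≤ D.δ (CoInd B.subtype W) := by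
  obtain ⟨m, i, hi, hiB⟩ := exists_embedding (G := B) hW
  have hst : ∀ (b : B), ∀ w ∈ i.range, b • w ∈ i.range := by
    rintro b _ ⟨w, rfl⟩
    exact ⟨b • w, hiB b w⟩
  letI : DistribMulAction B (FM B m p ⧸ i.range) := quotMod i.range hst
  haveI : Finite (FM B m p) := inferInstanceAs (Finite (Fin m → B → ZMod p))
  haveI : Finite (FM G m p) := inferInstanceAs (Finite (Fin m → G → ZMod p))
  have hF : ∀ x : FM B m p, p • x = 0 := by
    intro x
    funext j b
    show p • (x j b) = 0
    rw [nsmul_eq_mul, CharP.cast_eq_zero, zero_mul]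
  have hF' : ∀ x : FM G m p, p • x = 0 := by
    intro x
    funext j b
    show p • (x j b) = 0
    rw [nsmul_eq_mul, CharP.cast_eq_zero, zero_mul]
  have hQ : ∀ x : FM B m p ⧸ i.range, p • x = 0 := by
    intro x
    obtain ⟨w, rfl⟩ := QuotientAddGroup.mk'_surjective _ x
    rw [← map_nsmul, hF, map_zero]
  have hπ : ∀ (b : B) (w : FM B m p),
      QuotientAddGroup.mk' i.range (b • w) = b • QuotientAddGroup.mk' i.range w := fun b w => rfl
  have h1 := D.sub (CoInd B.subtype W) (CoInd B.subtype (FM B m p))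
    (CoInd B.subtype (FM B m p ⧸ i.range))
    (coindMap B.subtype i hiB) (coindMap B.subtype (QuotientAddGroup.mk' i.range) hπ)
    (coind_p hF) (fun g x => rfl) (fun g x => rfl)
    (coindMap_injective _ _ _ hi)
    (coindMap_surjective _ B.subtype_injective _ _ (QuotientAddGroup.mk'_surjective _))
    (coindMap_exact _ _ _ hiB hπ hi (fun w => by
      rw [QuotientAddGroup.mk'_apply, QuotientAddGroup.eq_zero_iff]
      exact Iff.rfl))
  have h2 := D.ind_le hPB hPp hle _ (FM B m p ⧸ i.range) hQ le_rfl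
  have h3 := D.le_of_iso (coindFM m) hF' (coind_p hF) (coindFM_smul m) (coindFM_bijective m)
  have h4 := D.free m
  have h5 := D.pos (CoInd B.subtype W) (coind_p hW)
  calc (1 : ℚ) ≤ _ := h4
    _ ≤ _ := h3
    _ ≤ _ := h1
    _ ≤ D.δ (CoInd B.subtype W) * 1 := by gcongr
    _ = _ := mul_one _

section last

variable [Fintype (G ⧸ B)] {N : Type} [AddCommGroup N] [DistribMulAction G N]

/-- the function on cosets attached to an element of the coinduced module -/
noncomputable def cosF : CoInd B.subtype N →+ TF (G ⧸ B) N where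
  toFun f := fun x => x.out • f.1 (x.out)⁻¹
  map_zero' := by
    funext x
    exact smul_zero _
  map_add' f f' := by
    funext x
    exact smul_add _ _ _

theorem cosF_apply (f : CoInd B.subtype N) (g : G) :
    cosF f ((g : G) : G ⧸ B) = g • f.1 g⁻¹ := by
  show ((g : G ⧸ B)).out • f.1 ((g : G ⧸ B).out)⁻¹ = _
  have h1 : g⁻¹ * ((g : G ⧸ B)).out ∈ B := by
    rw [← QuotientGroup.eq, QuotientGroup.out_eq']
  set o := ((g : G ⧸ B)).out with ho
  have h2 := f.2 ⟨g⁻¹ * o, h1⟩⁻¹ g⁻¹
  have h3 : B.subtype (⟨g⁻¹ * o, h1⟩⁻¹ : B) * g⁻¹ = o⁻¹ := by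
    show (g⁻¹ * o)⁻¹ * g⁻¹ = o⁻¹
    group
  rw [h3] at h2
  rw [h2]
  show o • (((g⁻¹ * o)⁻¹ : G) • f.1 g⁻¹) = g • f.1 g⁻¹
  rw [smul_smul]
  congr 1
  group

theorem cosF_smul (g : G) (f : CoInd B.subtype N) : cosF (g • f) = g • cosF f := by
  funext x
  induction x using QuotientGroup.induction_on with
  | H h =>
    rw [cosF_apply]
    show _ = g • cosF f (g⁻¹ • ((h : G) : G ⧸ B))
    have h1 : g⁻¹ • ((h : G) : G ⧸ B) = ((g⁻¹ * h : G) : G ⧸ B) := rfl
    rw [h1, cosF_apply, smul_smul, mul_inv_cancel_left, mul_inv_rev, inv_inv]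
    rfl

/-- the diagonal embedding -/
def diagC : N →+ CoInd B.subtype N where
  toFun n := ⟨fun g => g • n, fun d g => mul_smul (d : G) g n⟩
  map_zero' := Subtype.ext (funext fun g => smul_zero g)
  map_add' n n' := Subtype.ext (funext fun g => smul_add g n n')

theorem cosF_eq_cst {f : CoInd B.subtype N} {n : N} (h : cosF f = cst (G ⧸ B) N n) :
    diagC n = f := by
  apply Subtype.ext
  funext g
  have h1 := cosF_apply f g⁻¹
  rw [h, inv_inv] at h1
  have h2 : n = g⁻¹ • f.1 g := h1
  show g • n = f.1 g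
  rw [h2, smul_inv_smul]

theorem cosF_diagC (n : N) : cosF (diagC (B := B) n) = cst (G ⧸ B) N n := by
  funext x
  induction x using QuotientGroup.induction_on with
  | H h =>
    rw [cosF_apply]
    show h • h⁻¹ • n = n
    rw [smul_inv_smul]

theorem cosF_surjective : Function.Surjective (cosF (G := G) (B := B) (N := N)) := by
  intro F
  refine ⟨⟨fun g => g • F ((g⁻¹ : G) : G ⧸ B), fun d g => ?_⟩, ?_⟩
  · beta_reduce
    have h1 : (((B.subtype d * g)⁻¹ : G) : G ⧸ B) = ((g⁻¹ : G) : G ⧸ B) := by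
      rw [QuotientGroup.eq, inv_inv]
      show (d : G) * g * g⁻¹ ∈ B
      rw [mul_inv_cancel_right]
      exact d.2
    rw [h1, mul_smul]
    rfl
  · funext x
    induction x using QuotientGroup.induction_on with
    | H h =>
      rw [cosF_apply]
      show h • h⁻¹ • F (((h⁻¹)⁻¹ : G) : G ⧸ B) = F _
      rw [smul_inv_smul, inv_inv]

include D in
/-- **Lower bound for the Euler characteristic** -/
theorem ge_one (hPB : ∀ (b : B), ∀ x ∈ P, (b : G) * x * (b : G)⁻¹ ∈ P) (hPp : IsPGroup p P)
    (hle : P ≤ B) (hidx : ∃ k : ℕ, Fintype.card (G ⧸ B) = 1 + p * k) (hPi : P.index.Coprime p)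
    (hfree : ∀ x : G ⧸ B, x ≠ ((1 : G) : G ⧸ B) → ∀ h ∈ P, h • x = x → h = 1)
    [Finite N] (hN : ∀ x : N, p • x = 0) : 1 ≤ D.δ N := by
  classical
  haveI := Fintype.ofFinite G
  haveI : Finite (TF (G ⧸ B) N) := inferInstanceAs (Finite (G ⧸ B → N))
  have hY : ∀ x : YN (G ⧸ B) N, p • x = 0 := fun x => Subtype.ext (funext fun y => hN _)
  have hproj : IsPr G p (YN (G ⧸ B) N) := by
    refine IsHig.isPr hY (IsHig.of_index P hPi hY ?_)
    refine isHig_YN hidx hN P ((1 : G) : G ⧸ B) (fun h hh => ?_) hfree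
    show ((h * 1 : G) : G ⧸ B) = ((1 : G) : G ⧸ B)
    rw [mul_one, QuotientGroup.eq, mul_one]
    exact B.inv_mem (hle hh)
  have h1 := D.sub N (CoInd B.subtype N) (YN (G ⧸ B) N) diagC ((piY hidx hN).comp cosF)
    (coind_p hN) (fun g x => by
      apply Subtype.ext
      funext h
      show h • g • x = (h * g) • x
      rw [mul_smul])
    (fun g x => by
      show piY hidx hN (cosF (g • x)) = _
      rw [cosF_smul, piY_smul]; rfl)
    (fun x y hxy => by
      have h2 := congrFun (congrArg Subtype.val hxy) 1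
      have h3 : (1 : G) • x = (1 : G) • y := h2
      rwa [one_smul, one_smul] at h3)
    (fun F => by
      obtain ⟨f, hf⟩ := cosF_surjective (F : TF (G ⧸ B) N)
      refine ⟨f, ?_⟩
      show piY hidx hN (cosF f) = F
      rw [hf, piY_coe])
    (fun f => by
      constructor
      · intro h
        have h2 : cosF f - cst (G ⧸ B) N (sumF (G ⧸ B) N (cosF f)) = 0 :=
          congrArg Subtype.val h
        exact ⟨_, cosF_eq_cst (sub_eq_zero.mp h2)⟩
      · rintro ⟨n, rfl⟩
        show piY hidx hN (cosF (diagC n)) = 0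
        rw [cosF_diagC, piY_cst])
  have h2 := D.ind_ge hPB hPp hle N hN
  have h3 := D.proj (YN (G ⧸ B) N) hY hproj
  have h4 := D.pos N hN
  calc (1 : ℚ) ≤ _ := h2
    _ ≤ _ := h1
    _ ≤ D.δ N * 1 := by gcongr
    _ = _ := mul_one _

end last

end EulerData

end Fermat.Agent.EqDir
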