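import Fermat.Agent.EqDir.Proj
import Fermat.Agent.CFT.Shapiro

set_option autoImplicit false
set_option maxHeartbeats 400000
set_option linter.style.haveILetI false
set_option linter.unusedSectionVars false

/-! Higman's criterion and relative projectivity. -/

namespace Fermat.Agent.EqDir

open Fermat.Agent.CFT

/-- Higman's criterion -/
def IsHig (G X : Type*) [Group G] [Fintype G] [AddCommGroup X] [DistribMulAction G X] : Prop :=
  ∃ φ : X →+ X, ∀ x, ∑ g : G, g • φ (g⁻¹ • x) = x

/-- projective modules -/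
def IsPr (G : Type*) [Group G] (p : ℕ) [Fact p.Prime] (X : Type*) [AddCommGroup X]
    [DistribMulAction G X] : Prop :=
  ∃ (m : ℕ) (s : X →+ FM G m p) (r : FM G m p →+ X),
    (∀ (g : G) x, s (g • x) = g • s x) ∧ (∀ (g : G) f, r (g • f) = g • r f) ∧ ∀ x, r (s x) = x

section Hig

variable {G X : Type*} [Group G] [Fintype G] [AddCommGroup X] [DistribMulAction G X] {p : ℕ}
  [hp : Fact p.Prime]

theorem IsHig.isPr_aux [Finite X] [Module (ZMod p) X] (h : IsHig G X) : IsPr G p X := by
  haveI : Module.Finite (ZMod p) X := Module.Finite.of_finite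
  let b := Module.finBasis (ZMod p) X
  obtain ⟨φ, hφ⟩ := h
  let r1 : (Fin (Module.finrank (ZMod p) X) → ZMod p) →ₗ[ZMod p] X :=
    b.equivFun.symm.toLinearMap
  refine ⟨Module.finrank (ZMod p) X,
    { toFun := fun x i g => b.equivFun (φ (g⁻¹ • x)) i
      map_zero' := by funext i g; simp; rfl
      map_add' := fun x y => by
        funext i g
        show b.equivFun (φ (g⁻¹ • (x + y))) i =
          b.equivFun (φ (g⁻¹ • x)) i + b.equivFun (φ (g⁻¹ • y)) i
        rw [smul_add, map_add, map_add, Pi.add_apply] },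
    { toFun := fun f => ∑ g : G, g • r1 (fun i => f i g)
      map_zero' := by
        refine Finset.sum_eq_zero fun g _ => ?_
        show g • r1 0 = 0
        rw [map_zero, smul_zero]
      map_add' := fun f f' => by
        rw [← Finset.sum_add_distrib]
        refine Finset.sum_congr rfl fun g _ => ?_
        rw [← smul_add, ← map_add]
        rfl }, ?_, ?_, ?_⟩
  · intro g x
    funext i h
    show b.equivFun (φ (h⁻¹ • g • x)) i = b.equivFun (φ ((g⁻¹ * h)⁻¹ • x)) i
    rw [mul_inv_rev, inv_inv, mul_smul]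
  · intro g f
    show ∑ h : G, h • r1 (fun i => f i (g⁻¹ * h)) = g • ∑ h : G, h • r1 (fun i => f i h)
    rw [Finset.smul_sum, ← Equiv.sum_comp (Equiv.mulLeft g)]
    refine Finset.sum_congr rfl fun h _ => ?_
    rw [Equiv.coe_mulLeft, mul_smul]
    have h1 : (fun i => f i (g⁻¹ * (g * h))) = fun i => f i h := by
      funext i
      rw [inv_mul_cancel_left]
    show g • h • r1 (fun i => f i (g⁻¹ * (g * h))) = _
    rw [h1]
  · intro x
    show ∑ g : G, g • r1 (fun i => b.equivFun (φ (g⁻¹ • x)) i) = x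
    conv_rhs => rw [← hφ x]
    refine Finset.sum_congr rfl fun g _ => ?_
    congr 1
    exact b.equivFun.symm_apply_apply _

theorem IsHig.isPr [Finite X] (hX : ∀ x : X, p • x = 0) (h : IsHig G X) : IsPr G p X := by
  letI : Module (ZMod p) X := AddCommGroup.zmodModule hX
  exact h.isPr_aux

theorem exists_inverse {n : ℕ} (hn : n.Coprime p) : ∃ c : ℕ, ∀ (Y : Type _) [AddCommGroup Y],
    (∀ y : Y, p • y = 0) → ∀ y : Y, c • n • y = y := by
  obtain ⟨c, -, hc⟩ := Nat.exists_mul_mod_eq_one_of_coprime hn hp.out.one_lt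
  refine ⟨c, fun Y _ hY y => ?_⟩
  rw [smul_smul, mul_comm, ← mod_smul (p := p) (hY y), hc, one_smul]

/-- **Relative projectivity** -/
theorem IsHig.of_index (P : Subgroup G) (hP : P.index.Coprime p) (hX : ∀ x : X, p • x = 0)
    (h : letI := Fintype.ofFinite P; IsHig P X) : IsHig G X := by
  classical
  letI := Fintype.ofFinite P
  obtain ⟨φ, hφ⟩ := h
  obtain ⟨c, hc⟩ := exists_inverse (p := p) hP
  haveI := Fintype.ofFinite (G ⧸ P)
  refine ⟨c • φ, fun x => ?_⟩
  let e : (G ⧸ P) × P ≃ G :=
    { toFun := fun t => t.1.out * t.2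
      invFun := fun g => ((g : G ⧸ P), ⟨((g : G ⧸ P).out)⁻¹ * g, by
        rw [← QuotientGroup.eq, QuotientGroup.out_eq']⟩)
      left_inv := by
        rintro ⟨t, h⟩
        have h1 : ((t.out * h : G) : G ⧸ P) = t := by
          rw [QuotientGroup.mk_mul_of_mem _ h.2, QuotientGroup.out_eq']
        refine Prod.ext h1 (Subtype.ext ?_)
        show (((t.out * h : G) : G ⧸ P).out)⁻¹ * (t.out * h) = h
        rw [h1, inv_mul_cancel_left]
      right_inv := fun g => mul_inv_cancel_left _ _ }
  rw [← Equiv.sum_comp e, Fintype.sum_prod_type]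
  have h1 : ∀ t : G ⧸ P, ∑ h : P, e (t, h) • (c • φ) ((e (t, h))⁻¹ • x) = c • x := by
    intro t
    have h2 := congrArg (fun y => c • (t.out • y)) (hφ (t.out⁻¹ • x))
    simp only [smul_inv_smul] at h2
    rw [← h2, Finset.smul_sum, Finset.smul_sum]
    refine Finset.sum_congr rfl fun h _ => ?_
    show (t.out * (h : G)) • (c • φ ((t.out * (h : G))⁻¹ • x)) = _
    rw [mul_inv_rev, mul_smul, mul_smul, smul_comm c, smul_comm c]
    rfl
  rw [Finset.sum_congr rfl fun t _ => h1 t, Finset.sum_const, Finset.card_univ,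
    ← Nat.card_eq_fintype_card]
  have h3 : Nat.card (G ⧸ P) = P.index := rfl
  rw [h3, smul_comm, hc X hX]

end Hig

/-- functions on a `G`-set with values in a `G`-module, twisted action -/
def TF (X N : Type*) : Type _ := X → N

instance (X N : Type*) [AddCommGroup N] : AddCommGroup (TF X N) :=
  inferInstanceAs (AddCommGroup (X → N))

instance (G X N : Type*) [Group G] [MulAction G X] [AddCommGroup N] [DistribMulAction G N] :
    DistribMulAction G (TF X N) where
  smul g F := fun x => g • F (g⁻¹ • x)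
  one_smul F := by
    funext x
    show (1 : G) • F ((1 : G)⁻¹ • x) = F x
    rw [inv_one, one_smul, one_smul]
  mul_smul g h F := by
    funext x
    show (g * h) • F ((g * h)⁻¹ • x) = g • h • F (h⁻¹ • g⁻¹ • x)
    rw [mul_inv_rev, mul_smul, mul_smul]
  smul_zero g := by
    funext x
    exact smul_zero g
  smul_add g F F' := by
    funext x
    exact smul_add g _ _

section YN

variable {G : Type*} [Group G] [Fintype G] (X : Type*) [Fintype X] [MulAction G X] (N : Type*)
  [AddCommGroup N] [DistribMulAction G N]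

theorem TF.smul_apply {X N : Type*} [MulAction G X] [AddCommGroup N] [DistribMulAction G N] (g : G)
    (F : TF X N) (x : X) : (g • F) x = g • F (g⁻¹ • x) := rfl

theorem sum_add_aux (f f' : X → N) : ∑ x, (f x + f' x) = ∑ x, f x + ∑ x, f' x :=
  Finset.sum_add_distrib

theorem sum_twist (g : G) (F : X → N) : ∑ x, g • F (g⁻¹ • x) = g • ∑ x, F x := by
  rw [Finset.smul_sum, ← Equiv.sum_comp (MulAction.toPerm g)]
  refine Finset.sum_congr rfl fun x _ => ?_
  rw [MulAction.toPerm_apply, inv_smul_smul]

/-- sum of the values -/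
def sumF : TF X N →+ N where
  toFun F := ∑ x, F x
  map_zero' := Finset.sum_eq_zero fun _ _ => rfl
  map_add' F F' := sum_add_aux X N F F'

theorem sumF_smul (g : G) (F : TF X N) : sumF X N (g • F) = g • sumF X N F :=
  sum_twist X N g F

/-- constants -/
def cst : N →+ TF X N where
  toFun n := fun _ => n
  map_zero' := rfl
  map_add' _ _ := rfl

theorem cst_smul (g : G) (n : N) : cst X N (g • n) = g • cst X N n := rfl

/-- functions with sum zero -/
def YN : AddSubgroup (TF X N) := (sumF X N).ker

theorem mem_YN {F : TF X N} : F ∈ YN X N ↔ sumF X N F = 0 := Iff.rfl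

instance : DistribMulAction G (YN X N) where
  smul g F := ⟨g • F.1, by
    rw [mem_YN, sumF_smul, (mem_YN X N).mp F.2, smul_zero]⟩
  one_smul F := Subtype.ext (one_smul G F.1)
  mul_smul g h F := Subtype.ext (mul_smul g h F.1)
  smul_zero g := Subtype.ext (smul_zero g)
  smul_add g F F' := Subtype.ext (smul_add g F.1 F'.1)

theorem coe_smul_YN (g : G) (F : YN X N) : ((g • F : YN X N) : TF X N) = g • (F : TF X N) := rfl

variable {X N} {p : ℕ} [hp : Fact p.Prime]

/-- the projection to functions with sum zero -/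
def piY (hX : ∃ k : ℕ, Fintype.card X = 1 + p * k) (hN : ∀ n : N, p • n = 0) :
    TF X N →+ YN X N where
  toFun F := ⟨F - cst X N (sumF X N F), by
    obtain ⟨k, hk⟩ := hX
    rw [mem_YN, map_sub, sub_eq_zero]
    show _ = ∑ x : X, sumF X N F
    rw [Finset.sum_const, Finset.card_univ, hk, add_smul, one_smul, mul_comm, mul_smul, hN,
      smul_zero, add_zero]⟩
  map_zero' := Subtype.ext (by
    show (0 : TF X N) - cst X N (sumF X N 0) = 0
    rw [map_zero, map_zero, sub_zero])
  map_add' F F' := Subtype.ext (by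
    show F + F' - cst X N (sumF X N (F + F')) =
      F - cst X N (sumF X N F) + (F' - cst X N (sumF X N F'))
    rw [map_add, map_add]; abel)

variable (hX : ∃ k : ℕ, Fintype.card X = 1 + p * k) (hN : ∀ n : N, p • n = 0)

theorem coe_piY (F : TF X N) : (piY hX hN F : TF X N) = F - cst X N (sumF X N F) := rfl

theorem piY_smul (g : G) (F : TF X N) : piY hX hN (g • F) = g • piY hX hN F := by
  apply Subtype.ext
  rw [coe_smul_YN, coe_piY, coe_piY, sumF_smul, cst_smul, smul_sub]

theorem piY_coe (F : YN X N) : piY hX hN (F : TF X N) = F := by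
  apply Subtype.ext
  rw [coe_piY, (mem_YN X N).mp F.2, map_zero, sub_zero]

theorem piY_cst (n : N) : piY hX hN (cst X N n) = 0 := by
  apply Subtype.ext
  rw [coe_piY]
  obtain ⟨k, hk⟩ := hX
  have h1 : sumF X N (cst X N n) = n := by
    show ∑ x : X, n = n
    rw [Finset.sum_const, Finset.card_univ, hk, add_smul, one_smul, mul_comm, mul_smul, hN,
      smul_zero, add_zero]
  rw [h1, sub_self]; rfl

include hX hN in
/-- freeness outside a fixed point gives projectivity -/
theorem isHig_YN (P : Subgroup G) (x₀ : X) (hx₀ : ∀ h ∈ P, h • x₀ = x₀)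
    (hfree : ∀ x : X, x ≠ x₀ → ∀ h ∈ P, h • x = x → h = 1) :
    letI := Fintype.ofFinite P; IsHig P (YN X N) := by
  classical
  letI := Fintype.ofFinite P
  -- the indicator of a fundamental domain
  let rep : X → X := fun x => (Quotient.mk (MulAction.orbitRel P X) x).out
  have hrep : ∀ x : X, ∃ h : P, h • rep x = x := by
    intro x
    have h1 : (MulAction.orbitRel P X) (rep x) x := Quotient.exact (Quotient.out_eq _)
    rw [MulAction.orbitRel_apply, MulAction.mem_orbit_iff] at h1
    obtain ⟨h, hh⟩ := h1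
    exact ⟨h⁻¹, by rw [← hh, inv_smul_smul]⟩
  have hrep' : ∀ (h : P) (x : X), rep (h • x) = rep x := by
    intro h x
    show (Quotient.mk (MulAction.orbitRel P X) (h • x)).out =
      (Quotient.mk (MulAction.orbitRel P X) x).out
    congr 1
    apply Quotient.sound
    show (MulAction.orbitRel P X) (h • x) x
    rw [MulAction.orbitRel_apply]
    exact ⟨h, rfl⟩
  let d : X → Prop := fun x => x = rep x ∧ x ≠ x₀
  have hd : ∀ x, x ≠ x₀ → ∃! h : P, d (h⁻¹ • x) := by
    intro x hx
    obtain ⟨h, hh⟩ := hrep x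
    have hne : rep x ≠ x₀ := by
      intro h0
      rw [h0] at hh
      exact hx (hh.symm.trans (hx₀ h h.2))
    refine ⟨h, ⟨?_, ?_⟩, ?_⟩
    · rw [hrep', ← hh, inv_smul_smul, hh]
    · rw [← hh, inv_smul_smul]; exact hne
    · rintro h' ⟨h1, h2⟩
      rw [hrep'] at h1
      have h3 : h' • rep x = x := by rw [← h1, smul_inv_smul]
      have h4 : (h'⁻¹ * h) • rep x = rep x := by rw [mul_smul, hh, ← h1]
      have h5 := hfree _ hne _ (h'⁻¹ * h).2 h4
      have h6 : h'⁻¹ * h = 1 := Subtype.ext h5
      exact (inv_mul_eq_one.mp h6)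
  let φ₀ : TF X N →+ TF X N :=
    { toFun := fun F x => if d x then F x - F x₀ else 0
      map_zero' := by
        funext x
        show (if d x then (0 : N) - 0 else 0) = 0
        simp
      map_add' := fun F F' => by
        funext x
        show (if d x then (F x + F' x) - (F x₀ + F' x₀) else 0) =
          (if d x then F x - F x₀ else 0) + (if d x then F' x - F' x₀ else 0)
        split_ifs
        · abel
        · simp }
  refine ⟨(piY hX hN).comp (φ₀.comp (YN X N).subtype), fun F => ?_⟩
  have h1 : ∑ h : P, h • (piY hX hN).comp (φ₀.comp (YN X N).subtype) (h⁻¹ • F) =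
      piY hX hN (∑ h : P, h • φ₀ (h⁻¹ • (F : TF X N))) := by
    rw [map_sum]
    refine Finset.sum_congr rfl fun h _ => ?_
    exact (piY_smul hX hN (h : G) _).symm
  rw [h1]
  have h2 : ∑ h : P, h • φ₀ (h⁻¹ • (F : TF X N)) = (F : TF X N) - cst X N ((F : TF X N) x₀) := by
    funext x
    have h3 : (∑ h : P, h • φ₀ (h⁻¹ • (F : TF X N))) x =
        ∑ h : P, (h • φ₀ (h⁻¹ • (F : TF X N))) x := Finset.sum_apply x _ _
    rw [h3]
    have h4 : ∀ h : P, (h • φ₀ (h⁻¹ • (F : TF X N))) x =
        if d (h⁻¹ • x) then (F : TF X N) x - (F : TF X N) x₀ else 0 := by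
      intro h
      show (h : G) • (if d ((h : G)⁻¹ • x) then
        ((h : G)⁻¹ • (F : TF X N) (((h : G)⁻¹)⁻¹ • (h : G)⁻¹ • x)) -
          ((h : G)⁻¹ • (F : TF X N) (((h : G)⁻¹)⁻¹ • x₀)) else 0) = _
      have e1 : ((h : G)⁻¹)⁻¹ • x₀ = x₀ := by rw [inv_inv]; exact hx₀ h h.2
      rw [e1, inv_inv, smul_inv_smul]
      have e2 : ((h : G)⁻¹ • x) = h⁻¹ • x := rfl
      rw [e2]
      split_ifs
      · rw [← smul_sub, smul_inv_smul]
      · exact smul_zero _
    rw [Finset.sum_congr rfl fun h _ => h4 h]
    show _ = (F : TF X N) x - (F : TF X N) x₀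
    by_cases hx : x = x₀
    · subst hx
      rw [sub_self]
      exact Finset.sum_eq_zero fun h _ => by split_ifs <;> rfl
    · obtain ⟨h, hh, huniq⟩ := hd x hx
      rw [Finset.sum_eq_single h (fun h' _ hne => if_neg fun h5 => hne (huniq h' h5))
        (fun h => absurd (Finset.mem_univ _) h), if_pos hh]
  rw [h2, map_sub, piY_cst, sub_zero, piY_coe]

end YN

end Fermat.Agent.EqDir
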