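import Fermat.Agent.EqDir.Dir

set_option autoImplicit false
set_option maxHeartbeats 400000
set_option linter.style.haveILetI false
set_option linter.unusedSectionVars false

/-! The isogeny from functions on places to units. -/

namespace Fermat.Agent.EqDir

open Fermat.Agent.CFT NumberField IsDedekindDomain WithZero

namespace SData

variable {K G U : Type*} [Field K] [NumberField K] [Group G] [MulSemiringAction G K]
    [AddCommGroup U] [DistribMulAction G U] {Sf : Set (HeightOneSpectrum (𝓞 K))}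
    [MulAction G Sf] [MulAction G (InfinitePlace K)] (D : SData K G U Sf)

theorem exists_fin : ∃ h : ℕ, h ≠ 0 ∧ ∀ v : Sf, ∃ u : U, D.ov v.1 u = h ∧
    ∀ v' : Sf, v' ≠ v → D.ov v'.1 u = 0 := by
  classical
  refine ⟨(princ (𝓞 K) K).index, princ_index, fun v => ?_⟩
  obtain ⟨x, hx, h⟩ := AddSubgroup.nsmul_index_mem (princ (𝓞 K) K)
    (Finsupp.single v.1 (1 : ℤ))
  have h1 : ∀ v' : HeightOneSpectrum (𝓞 K), v' ≠ v.1 → v'.valuation K x = 1 := by
    intro v' hv'
    rw [h, Finsupp.smul_apply, Finsupp.single_eq_of_ne hv', smul_zero, neg_zero, WithZero.exp_zero]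
  obtain ⟨u, hu⟩ := (D.range (Units.mk0 x hx)).mpr fun v' hv' => h1 v' (by
    rintro rfl; exact hv' v.2)
  have hval : D.val u = x := congrArg (fun y : Additive Kˣ => ((y.toMul : Kˣ) : K)) hu
  refine ⟨u, D.ov_eq ?_, fun v' hv' => D.ov_eq ?_⟩
  · rw [hval, h, Finsupp.smul_apply, Finsupp.single_eq_same, nsmul_eq_mul, mul_one]
  · rw [hval, h1 v'.1 fun h => hv' (Subtype.ext h), neg_zero, WithZero.exp_zero]

theorem exists_inf (w : InfinitePlace K) : ∃ u : U, (∀ v : Sf, D.ov v.1 u = 0) ∧
    ∀ w' : InfinitePlace K, w' ≠ w → D.lg w' u < 0 := by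
  obtain ⟨x, hx⟩ := Units.dirichletUnitTheorem.exists_unit K w
  obtain ⟨u, hu⟩ := D.exists_of_unit x
  refine ⟨u, fun v => D.ov_eq ?_, fun w' hw' => ?_⟩
  · rw [hu, neg_zero, WithZero.exp_zero]
    have h1 : v.1.valuation K (algebraMap (𝓞 K) K (x : 𝓞 K)) ≤ 1 := v.1.valuation_le_one _
    have h2 : v.1.valuation K (algebraMap (𝓞 K) K ((x⁻¹ : (𝓞 K)ˣ) : 𝓞 K)) ≤ 1 :=
      v.1.valuation_le_one _
    have h3 : v.1.valuation K (algebraMap (𝓞 K) K (x : 𝓞 K)) *
        v.1.valuation K (algebraMap (𝓞 K) K ((x⁻¹ : (𝓞 K)ˣ) : 𝓞 K)) = 1 := by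
      rw [← map_mul, ← map_mul, Units.mul_inv, map_one, map_one]
    exact le_antisymm h1 (by
      rw [← h3]
      exact mul_le_of_le_one_right' h2)
  · rw [lg_apply, hu]
    exact hx w' hw'

theorem sum_lg {u : U} (h : ∀ v : Sf, D.ov v.1 u = 0) :
    ∑ w : InfinitePlace K, w.mult * D.lg w u = 0 := by
  obtain ⟨x, hx⟩ := D.exists_unit h
  have h1 := Units.sum_mult_mul_log x
  rw [← h1]
  refine Finset.sum_congr rfl fun w _ => ?_
  rw [lg_apply, ← hx]

/-- the homomorphism `u ↦ (ord_v u)_v` together with the trivial coordinate -/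
noncomputable def ORD : U × Triv ℤ →+ (Sf → ℤ) × ℤ where
  toFun x := (fun v => D.ov v.1 x.1, x.2)
  map_zero' := by
    refine Prod.ext (funext fun v => ?_) rfl
    exact map_zero _
  map_add' a b := by
    refine Prod.ext (funext fun v => ?_) rfl
    exact map_add _ _ _

/-- units map to the kernel -/
noncomputable def unitsTo : Additive (𝓞 K)ˣ →+ (D.ORD).ker where
  toFun x := ⟨((D.exists_of_unit x.toMul).choose, (0 : ℤ)), by
    rw [AddMonoidHom.mem_ker]
    refine Prod.ext (funext fun v => ?_) rfl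
    show D.ov v.1 _ = 0
    refine D.ov_eq ?_
    rw [(D.exists_of_unit x.toMul).choose_spec, neg_zero, WithZero.exp_zero]
    have h1 : v.1.valuation K (algebraMap (𝓞 K) K (x.toMul : 𝓞 K)) ≤ 1 := v.1.valuation_le_one _
    have h2 : v.1.valuation K (algebraMap (𝓞 K) K ((x.toMul⁻¹ : (𝓞 K)ˣ) : 𝓞 K)) ≤ 1 :=
      v.1.valuation_le_one _
    have h3 : v.1.valuation K (algebraMap (𝓞 K) K (x.toMul : 𝓞 K)) *
        v.1.valuation K (algebraMap (𝓞 K) K ((x.toMul⁻¹ : (𝓞 K)ˣ) : 𝓞 K)) = 1 := by
      rw [← map_mul, ← map_mul, Units.mul_inv, map_one, map_one]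
    exact le_antisymm h1 (by
      rw [← h3]
      exact mul_le_of_le_one_right' h2)⟩
  map_zero' := by
    apply Subtype.ext
    refine Prod.ext ?_ rfl
    apply D.inj
    apply Additive.toMul.injective
    apply Units.ext
    show D.val _ = D.val 0
    rw [(D.exists_of_unit _).choose_spec, val_zero]
    simp
  map_add' x y := by
    apply Subtype.ext
    refine Prod.ext ?_ (add_zero (0 : ℤ)).symm
    apply D.inj
    apply Additive.toMul.injective
    apply Units.ext
    show D.val _ = D.val (_ + _)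
    rw [(D.exists_of_unit _).choose_spec, val_add, (D.exists_of_unit _).choose_spec,
      (D.exists_of_unit _).choose_spec]
    simp

theorem unitsTo_surjective : Function.Surjective (D.unitsTo) := by
  rintro ⟨⟨u, n⟩, hu⟩
  rw [AddMonoidHom.mem_ker] at hu
  have h1 : ∀ v : Sf, D.ov v.1 u = 0 := fun v => congrFun (congrArg Prod.fst hu) v
  have h2 : n = (0 : ℤ) := congrArg Prod.snd hu
  obtain ⟨x, hx⟩ := D.exists_unit h1
  refine ⟨Additive.ofMul x, ?_⟩
  apply Subtype.ext
  refine Prod.ext ?_ h2.symm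
  apply D.inj
  apply Additive.toMul.injective
  apply Units.ext
  show D.val _ = D.val u
  exact (D.exists_of_unit _).choose_spec.trans hx

end SData

theorem fg_of_ker {A B E : Type*} [AddCommGroup A] [AddCommGroup B] [AddCommGroup E]
    [Module.Finite ℤ B] [Module.Finite ℤ E] (f : A →ₗ[ℤ] B) (g : E →ₗ[ℤ] f.ker)
    (hg : Function.Surjective g) :
    Module.Finite ℤ A ∧ Module.finrank ℤ A ≤ Module.finrank ℤ B + Module.finrank ℤ E := by
  haveI : Module.Finite ℤ f.ker := Module.Finite.of_surjective g hg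
  haveI : Module.Finite ℤ (A ⧸ f.ker) := Module.Finite.equiv f.quotKerEquivRange.symm
  haveI : Module.Finite ℤ A := Module.Finite.of_submodule_quotient f.ker
  refine ⟨inferInstance, ?_⟩
  have h1 := rank_identities f
  have h2 := LinearMap.finrank_le_finrank_of_surjective hg
  omega

namespace SData

variable {K G U : Type*} [Field K] [NumberField K] [Group G] [MulSemiringAction G K]
    [AddCommGroup U] [DistribMulAction G U] {Sf : Set (HeightOneSpectrum (𝓞 K))}
    [MulAction G Sf] [MulAction G (InfinitePlace K)] (D : SData K G U Sf)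

include D in
theorem fg' [Finite Sf] : Module.Finite ℤ (U × Triv ℤ) ∧
    Module.finrank ℤ (U × Triv ℤ) ≤ Nat.card Sf + Nat.card (InfinitePlace K) := by
  haveI := Fintype.ofFinite Sf
  obtain ⟨h1, h2⟩ := fg_of_ker (D.ORD).toIntLinearMap (D.unitsTo).toIntLinearMap
    D.unitsTo_surjective
  refine ⟨h1, h2.trans ?_⟩
  have h3 : 0 < Fintype.card (InfinitePlace K) := Fintype.card_pos
  rw [Units.finrank_eq, Units.rank, Module.finrank_prod, Module.finrank_self,
    Module.finrank_fintype_fun_eq_card, Nat.card_eq_fintype_card, Nat.card_eq_fintype_card]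
  omega

include D in
/-- **The equivariant isogeny** -/
theorem exists_isogeny [Finite Sf] [Finite G] :
    ∃ Φ : PFun (Sf ⊕ InfinitePlace K) ℤ →+ U × Triv ℤ,
      (∀ (g : G) f, Φ (g • f) = g • Φ f) ∧ FinInd Φ := by
  classical
  haveI := Fintype.ofFinite Sf
  haveI := Fintype.ofFinite G
  obtain ⟨h, hh0, hfin⟩ := D.exists_fin
  choose uf huf1 huf2 using hfin
  choose ui hui1 hui2 using D.exists_inf
  let u : Sf ⊕ InfinitePlace K → U × Triv ℤ :=
    Sum.elim (fun v => (uf v, (0 : ℤ))) (fun w => (ui w, (1 : ℤ)))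
  let Φ : PFun (Sf ⊕ InfinitePlace K) ℤ →+ U × Triv ℤ := avgMap (G := G) u
  have hΦ : ∀ f, Φ f = ∑ x, f x • avg (G := G) u x := fun f => rfl
  -- orders
  have e1 : ∀ (v v' : Sf), D.ov v.1 (avg (G := G) u (Sum.inl v')).1 =
      if v' = v then (Fintype.card G : ℤ) * h else 0 := by
    intro v v'
    have : (avg (G := G) u (Sum.inl v')).1 = ∑ g : G, g⁻¹ • uf (g • v') := by
      unfold avg
      rw [Prod.fst_sum]
      rfl
    rw [this, map_sum]
    have h1 : ∀ g : G, D.ov v.1 (g⁻¹ • uf (g • v')) = if v' = v then (h : ℤ) else 0 := by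
      intro g
      have h2 := D.ov_smul g v (g⁻¹ • uf (g • v'))
      rw [smul_inv_smul] at h2
      rw [← h2]
      by_cases hv : v' = v
      · subst hv
        rw [if_pos rfl, huf1]
      · rw [if_neg hv, huf2 _ _ fun h3 => hv ((MulAction.injective g h3).symm)]
    rw [Finset.sum_congr rfl fun g _ => h1 g]
    by_cases hv : v' = v
    · simp [hv]
    · simp [hv]
  have e2 : ∀ (v : Sf) (w : InfinitePlace K), D.ov v.1 (avg (G := G) u (Sum.inr w)).1 = 0 := by
    intro v w
    have : (avg (G := G) u (Sum.inr w)).1 = ∑ g : G, g⁻¹ • ui (g • w) := by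
      unfold avg
      rw [Prod.fst_sum]
      rfl
    rw [this, map_sum]
    refine Finset.sum_eq_zero fun g _ => ?_
    have h2 := D.ov_smul g v (g⁻¹ • ui (g • w))
    rw [smul_inv_smul] at h2
    rw [← h2, hui1]
  have e3 : ∀ (w w' : InfinitePlace K), w' ≠ w →
      D.lg w' (avg (G := G) u (Sum.inr w)).1 < 0 := by
    intro w w' hw
    have : (avg (G := G) u (Sum.inr w)).1 = ∑ g : G, g⁻¹ • ui (g • w) := by
      unfold avg
      rw [Prod.fst_sum]
      rfl
    rw [this, map_sum]
    refine Finset.sum_neg (fun g _ => ?_) ⟨1, Finset.mem_univ _⟩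
    have h2 := D.lg_smul g w' (g⁻¹ • ui (g • w))
    rw [smul_inv_smul] at h2
    rw [← h2]
    exact hui2 _ _ fun h3 => hw (MulAction.injective g h3)
  have e4 : ∀ (v : Sf), (avg (G := G) u (Sum.inl v)).2 = (0 : ℤ) := by
    intro v
    unfold avg
    rw [Prod.snd_sum]
    exact Finset.sum_eq_zero fun g _ => rfl
  have e5 : ∀ (w : InfinitePlace K), (avg (G := G) u (Sum.inr w)).2 = (Fintype.card G : ℤ) := by
    intro w
    unfold avg
    rw [Prod.snd_sum]
    have : ∀ g : G, (g⁻¹ • u (g • Sum.inr w)).2 = (1 : ℤ) := fun g => rfl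
    have h1 : ∑ g : G, (g⁻¹ • u (g • Sum.inr w)).2 = ∑ g : G, (1 : ℤ) :=
      Finset.sum_congr rfl fun g _ => this g
    exact h1.trans (by simp : (∑ g : G, (1 : ℤ)) = (Fintype.card G : ℤ))
  have hG : (Fintype.card G : ℤ) ≠ 0 := by exact_mod_cast Fintype.card_ne_zero
  refine ⟨Φ, fun g f => avgMap_smul u g f, ?_⟩
  obtain ⟨hfg, hrk⟩ := D.fg'
  haveI : Module.Finite ℤ (PFun (Sf ⊕ InfinitePlace K) ℤ) :=
    inferInstanceAs (Module.Finite ℤ (Sf ⊕ InfinitePlace K → ℤ))
  have hrk' : Module.finrank ℤ (PFun (Sf ⊕ InfinitePlace K) ℤ) =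
      Nat.card Sf + Nat.card (InfinitePlace K) := by
    have : Module.finrank ℤ (Sf ⊕ InfinitePlace K → ℤ) = _ := Module.finrank_fintype_fun_eq_card ℤ
    rw [Fintype.card_sum] at this
    rw [Nat.card_eq_fintype_card, Nat.card_eq_fintype_card]
    exact this
  refine finInd_of_ker Φ (by rw [hrk']; exact hrk) ?_
  have hinj : Function.Injective Φ := by
    rw [injective_iff_map_eq_zero]
    intro f hf
    rw [hΦ] at hf
    have hf1 : ∑ x, f x • (avg (G := G) u x).1 = 0 := by
      have := congrArg Prod.fst hf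
      rw [Prod.fst_sum] at this
      exact this
    have hf2 : ∑ x, f x • (avg (G := G) u x).2 = 0 := by
      have := congrArg Prod.snd hf
      rw [Prod.snd_sum] at this
      exact this
    -- finite places
    have g1 : ∀ v : Sf, f (Sum.inl v) = 0 := by
      intro v
      have h1 := congrArg (D.ov v.1) hf1
      rw [map_zero, map_sum, Fintype.sum_sum_type] at h1
      simp only [map_zsmul, e1, e2, smul_zero, Finset.sum_const_zero, add_zero] at h1
      rw [Finset.sum_eq_single v (fun v' _ hv' => by rw [if_neg hv', smul_zero])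
        (fun h => absurd (Finset.mem_univ _) h), if_pos rfl, smul_eq_mul] at h1
      rcases mul_eq_zero.mp h1 with h2 | h2
      · exact h2
      · exact absurd h2 (mul_ne_zero hG (by exact_mod_cast hh0))
    -- infinite places
    rw [Fintype.sum_sum_type] at hf1 hf2
    simp only [g1, zero_smul, Finset.sum_const_zero, zero_add] at hf1 hf2
    have g2 : ∑ w, f (Sum.inr w) = 0 := by
      simp only [e5] at hf2
      have h0 : ∑ w, f (Sum.inr w) * (Fintype.card G : ℤ) = 0 := hf2
      have h1 : (∑ w, f (Sum.inr w)) * (Fintype.card G : ℤ) = 0 := by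
        rw [Finset.sum_mul]; exact h0
      rcases mul_eq_zero.mp h1 with h2 | h2
      · exact h2
      · exact absurd h2 hG
    have g3 := eq_zero_of_matrix
      (fun w' w => (w'.mult : ℝ) * D.lg w' (avg (G := G) u (Sum.inr w)).1) (by
        intro w' w hw
        exact mul_neg_of_pos_of_neg (by exact_mod_cast InfinitePlace.mult_pos) (e3 w w' hw)) (by
        intro w
        exact D.sum_lg fun v => e2 v w) (fun w => (f (Sum.inr w) : ℝ)) (by exact_mod_cast g2) (by
        intro w'
        have h1 := congrArg (D.lg w') hf1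
        rw [map_zero, map_sum] at h1
        simp only [map_zsmul, zsmul_eq_mul] at h1
        have h2 : ∑ w, (w'.mult : ℝ) * D.lg w' (avg (G := G) u (Sum.inr w)).1 * (f (Sum.inr w) : ℝ)
            = (w'.mult : ℝ) * ∑ w, (f (Sum.inr w) : ℝ) * D.lg w' (avg (G := G) u (Sum.inr w)).1 := by
          rw [Finset.mul_sum]
          exact Finset.sum_congr rfl fun w _ => by ring
        rw [h2, h1, mul_zero])
    funext x
    rcases x with v | w
    · exact g1 v
    · have h5 : ((f (Sum.inr w) : ℤ) : ℝ) = 0 := congrFun g3 w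
      exact Int.cast_eq_zero.mp h5
  rw [(AddMonoidHom.ker_eq_bot_iff _).mpr hinj]
  simp

end SData

end Fermat.Agent.EqDir
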