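import Fermat.Agent.EqDir.Rank

set_option autoImplicit false
set_option maxHeartbeats 400000
set_option linter.style.haveILetI false
set_option linter.unusedSectionVars false

/-! The lattice lemma: `|e(B/p)| / |e(B[p])|` is an isogeny invariant. -/

namespace Fermat.Agent.EqDir

open Fermat.Agent.CFT

section One

variable {B : Type*} [AddCommGroup B]

/-- index of `pB + (1 - ε)B` -/
noncomputable def cIdx (p : ℕ) (ε : AddMonoid.End B) : ℕ :=
  ((mulN B p).range ⊔ ((1 - ε : AddMonoid.End B) : B →+ B).range).index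

/-- number of `x` with `p x = 0`, `ε x = x` -/
noncomputable def kCard (p : ℕ) (ε : AddMonoid.End B) : ℕ :=
  Nat.card ↥((mulN B p).ker ⊓ ((1 - ε : AddMonoid.End B) : B →+ B).ker)

/-- a finite group `Q` with `pQ = Q` has order prime to `p` -/
theorem coprime_card_of_surj {p : ℕ} [hp : Fact p.Prime] {Q : Type*} [AddCommGroup Q] [Finite Q]
    (h : ∀ x : Q, ∃ y : Q, x = p • y) : (Nat.card Q).Coprime p := by
  rw [Nat.coprime_comm, hp.out.coprime_iff_not_dvd]
  intro hd
  have hsurj : Function.Surjective (fun y : Q => p • y) := fun x => by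
    obtain ⟨y, hy⟩ := h x
    exact ⟨y, hy.symm⟩
  have hinj := Finite.injective_iff_surjective.mpr hsurj
  obtain ⟨x, hx⟩ := exists_prime_addOrderOf_dvd_card' p hd
  have h1 : p • x = 0 := by rw [← hx]; exact addOrderOf_nsmul_eq_zero x
  have h2 : x = 0 := hinj (by simpa using h1)
  rw [h2, addOrderOf_zero] at hx
  exact hp.out.one_lt.ne hx

/-- a finite group `Q` without `p`-torsion has order prime to `p` -/
theorem coprime_card_of_inj {p : ℕ} [hp : Fact p.Prime] {Q : Type*} [AddCommGroup Q] [Finite Q]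
    (h : ∀ x : Q, p • x = 0 → x = 0) : (Nat.card Q).Coprime p := by
  rw [Nat.coprime_comm, hp.out.coprime_iff_not_dvd]
  intro hd
  obtain ⟨x, hx⟩ := exists_prime_addOrderOf_dvd_card' p hd
  have h1 : p • x = 0 := by rw [← hx]; exact addOrderOf_nsmul_eq_zero x
  have h2 : x = 0 := h x h1
  rw [h2, addOrderOf_zero] at hx
  exact hp.out.one_lt.ne hx

/-- a finite group killed by `p` has `p`-power order -/
theorem exists_card_eq_pow {p : ℕ} [hp : Fact p.Prime] {Q : Type*} [AddCommGroup Q] [Finite Q]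
    (h : ∀ x : Q, p • x = 0) : ∃ n : ℕ, Nat.card Q = p ^ n := by
  have h1 : IsPGroup p (Multiplicative Q) := fun x => ⟨1, by
    rw [pow_one]
    exact congrArg Multiplicative.ofAdd (h x.toAdd)⟩
  obtain ⟨n, hn⟩ := IsPGroup.iff_card.mp h1
  exact ⟨n, hn⟩

/-- an approximate idempotent endomorphism -/
structure AppIdem (p : ℕ) (ε : AddMonoid.End B) : Prop where
  ex : ∃ ν : AddMonoid.End B, ε * ε - ε = p * ν

variable {p : ℕ} [hp : Fact p.Prime] {ε : AddMonoid.End B}

/-- the better approximation -/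
def imp (ε : AddMonoid.End B) : AddMonoid.End B := 3 * ε ^ 2 - 2 * ε ^ 3

/-- the test endomorphism -/
def tst (p : ℕ) (ε : AddMonoid.End B) : AddMonoid.End B := 1 + (p - 1) * imp ε

theorem imp_sub (ε : AddMonoid.End B) : imp ε - ε = -((2 * ε - 1) * (ε * ε - ε)) := by
  unfold imp; noncomm_ring

theorem imp_sq (ε : AddMonoid.End B) :
    imp ε * imp ε - imp ε = (ε * ε - ε) * (ε * ε - ε) * (4 * ε ^ 2 - 4 * ε - 3) := by
  unfold imp; noncomm_ring

theorem exists_tst_eq (h : AppIdem p ε) : ∃ κ : AddMonoid.End B, tst p ε = (1 - ε) + p * κ := by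
  obtain ⟨ν, hν⟩ := h.ex
  refine ⟨ε - (p - 1) * ((2 * ε - 1) * ν), ?_⟩
  have h1 : imp ε = ε - p * ((2 * ε - 1) * ν) := by
    have h2 := imp_sub ε
    rw [hν] at h2
    have h3 : (2 * ε - 1) * ((p : AddMonoid.End B) * ν) = p * ((2 * ε - 1) * ν) := by
      rw [← mul_assoc, ← (Nat.cast_commute p (2 * ε - 1)).eq, mul_assoc]
    rw [h3] at h2
    rw [sub_eq_iff_eq_add.mp h2]
    abel
  have h4 : ((p : AddMonoid.End B) - 1) * ((p : AddMonoid.End B) * ((2 * ε - 1) * ν)) =
      p * ((p - 1) * ((2 * ε - 1) * ν)) := by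
    noncomm_ring
  rw [tst, h1, mul_sub, h4, mul_sub]
  noncomm_ring

/-- the complement of the test endomorphism -/
def cts (p : ℕ) (ε : AddMonoid.End B) : AddMonoid.End B := p - (p - 1) * imp ε

theorem exists_mul_eq (h : AppIdem p ε) : ∃ V : AddMonoid.End B,
    tst p ε * cts p ε = p * (1 - p * V) ∧ cts p ε * tst p ε = p * (1 - p * V) := by
  obtain ⟨ν, hν⟩ := h.ex
  let W : AddMonoid.End B := ν * ν * (4 * ε ^ 2 - 4 * ε - 3)
  have h1 : imp ε * imp ε - imp ε = p * (p * W) := by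
    rw [imp_sq, hν]
    have h3 : ν * ((p : AddMonoid.End B) * ν) = p * (ν * ν) := by
      rw [← mul_assoc, ← (Nat.cast_commute p ν).eq, mul_assoc]
    rw [mul_assoc (p : AddMonoid.End B) ν, h3]
    simp only [W, mul_assoc]
  have h2 : imp ε * imp ε = imp ε + p * (p * W) := by rw [← h1]; abel
  refine ⟨(p - 1) * ((p - 1) * W), ?_, ?_⟩
  · have e1 : tst p ε * cts p ε = p + (p - 1) * (p - 1) * imp ε -
        (p - 1) * (p - 1) * (imp ε * imp ε) := by
      have hc : imp ε * ((p : AddMonoid.End B) - 1) = (p - 1) * imp ε := by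
        rw [mul_sub, sub_mul, (Nat.cast_commute p (imp ε)).eq]; simp
      have hc' : imp ε * ((p : AddMonoid.End B)) = p * imp ε := (Nat.cast_commute p (imp ε)).eq.symm
      unfold tst cts
      have e2 : ((p : AddMonoid.End B) - 1) * imp ε * ((p - 1) * imp ε) =
          (p - 1) * (p - 1) * (imp ε * imp ε) := by
        rw [mul_assoc, ← mul_assoc (imp ε), hc]; simp only [mul_assoc]
      have e3 : ((p : AddMonoid.End B) - 1) * imp ε * p = (p - 1) * p * imp ε := by
        rw [mul_assoc, hc', mul_assoc]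
      rw [mul_sub, add_mul, add_mul, one_mul, one_mul, e2, e3]
      noncomm_ring
    rw [e1, h2]
    have e4 : ((p : AddMonoid.End B) - 1) * (p - 1) * (p * (p * W)) =
        p * (p * ((p - 1) * ((p - 1) * W))) := by
      noncomm_ring
    rw [mul_add, e4]
    noncomm_ring
  · have e1 : cts p ε * tst p ε = p + (p - 1) * (p - 1) * imp ε -
        (p - 1) * (p - 1) * (imp ε * imp ε) := by
      have hc : imp ε * ((p : AddMonoid.End B) - 1) = (p - 1) * imp ε := by
        rw [mul_sub, sub_mul, (Nat.cast_commute p (imp ε)).eq]; simp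
      unfold tst cts
      have e2 : ((p : AddMonoid.End B) - 1) * imp ε * ((p - 1) * imp ε) =
          (p - 1) * (p - 1) * (imp ε * imp ε) := by
        rw [mul_assoc, ← mul_assoc (imp ε), hc]; simp only [mul_assoc]
      rw [sub_mul, mul_add, mul_add, mul_one, mul_one, e2]
      noncomm_ring
    rw [e1, h2]
    have e4 : ((p : AddMonoid.End B) - 1) * (p - 1) * (p * (p * W)) =
        p * (p * ((p - 1) * ((p - 1) * W))) := by
      noncomm_ring
    rw [mul_add, e4]
    noncomm_ring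

theorem cn_apply (n : ℕ) (x : AddMonoid.End B) (b : B) :
    ((n : AddMonoid.End B) * x) b = n • x b := rfl

theorem tst_apply_of {κ : AddMonoid.End B} (hκ : tst p ε = (1 - ε) + p * κ) (b : B) :
    (tst p ε) b = (1 - ε : AddMonoid.End B) b + p • κ b := by
  rw [hκ]; rfl

theorem range_sup (h : AppIdem p ε) :
    ((tst p ε : AddMonoid.End B) : B →+ B).range ⊔ (mulN B p).range =
      (mulN B p).range ⊔ ((1 - ε : AddMonoid.End B) : B →+ B).range := by
  obtain ⟨κ, hκ⟩ := exists_tst_eq h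
  apply le_antisymm
  · refine sup_le ?_ le_sup_left
    rintro _ ⟨b, rfl⟩
    show (tst p ε) b ∈ _
    rw [tst_apply_of hκ]
    exact AddSubgroup.add_mem _ (AddSubgroup.mem_sup_right ⟨b, rfl⟩)
      (AddSubgroup.mem_sup_left ⟨κ b, rfl⟩)
  · refine sup_le le_sup_right ?_
    rintro _ ⟨b, rfl⟩
    have h1 : (1 - ε : AddMonoid.End B) b = (tst p ε) b - p • κ b := by
      rw [tst_apply_of hκ]; abel
    show (1 - ε : AddMonoid.End B) b ∈ _
    rw [h1]
    exact AddSubgroup.sub_mem _ (AddSubgroup.mem_sup_left ⟨b, rfl⟩)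
      (AddSubgroup.mem_sup_right ⟨κ b, rfl⟩)

theorem ker_inf (h : AppIdem p ε) :
    (mulN B p).ker ⊓ ((tst p ε : AddMonoid.End B) : B →+ B).ker =
      (mulN B p).ker ⊓ ((1 - ε : AddMonoid.End B) : B →+ B).ker := by
  obtain ⟨κ, hκ⟩ := exists_tst_eq h
  ext x
  simp only [AddSubgroup.mem_inf, AddMonoidHom.mem_ker]
  refine and_congr_right fun hx => ?_
  have h1 : (tst p ε) x = (1 - ε : AddMonoid.End B) x := by
    rw [tst_apply_of hκ, ← map_nsmul, show p • x = 0 from hx, map_zero, add_zero]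
  exact ⟨fun h => h1.symm.trans h, fun h => h1.trans h⟩

theorem mul_eq_apply {V : AddMonoid.End B} {f g : AddMonoid.End B} (h : f * g = p * (1 - p * V))
    (b : B) : f (g b) = p • b - p • (p • V b) := by
  have h1 : (f * g) b = f (g b) := rfl
  rw [← h1, h, cn_apply]
  show p • (b - p • V b) = _
  rw [smul_sub]

section FG

variable [Module.Finite ℤ B]

theorem finInd_tst (h : AppIdem p ε) : FinInd ((tst p ε : AddMonoid.End B) : B →+ B) := by
  obtain ⟨V, h1, h2⟩ := exists_mul_eq h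
  refine finInd_of_coker _ le_rfl ?_
  -- the quotient `B / (1 - pV) B` is finite
  let u : B →+ B := ((1 - p * V : AddMonoid.End B) : B →+ B)
  haveI : Module.Finite ℤ (B ⧸ u.range) :=
    inferInstanceAs (Module.Finite ℤ (B ⧸ u.toIntLinearMap.range))
  have hu : u.range.index ≠ 0 := by
    haveI : Finite (B ⧸ u.range) := finite_of_surj (p := p) hp.out.one_lt fun x => by
      obtain ⟨y, rfl⟩ := QuotientAddGroup.mk'_surjective _ x
      refine ⟨QuotientAddGroup.mk' _ (V y), ?_⟩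
      rw [← map_nsmul, ← sub_eq_zero, ← map_sub]
      exact (QuotientAddGroup.eq_zero_iff _).mpr ⟨y, rfl⟩
    exact AddSubgroup.index_ne_zero_of_finite
  have h3 : FinInd ((mulN B p).comp u) :=
    (finInd_of_coker u le_rfl hu).comp (finInd_mulN hp.out.ne_zero)
  let f : B →+ B := ((tst p ε : AddMonoid.End B) : B →+ B)
  let g : B →+ B := ((cts p ε : AddMonoid.End B) : B →+ B)
  have h4 : (mulN B p).comp u = f.comp g := by
    ext b
    exact (congrArg (fun x : AddMonoid.End B => x b) h1).symm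
  have h5 : (f.comp g).range.index ≠ 0 := by rw [← h4]; exact h3.coker
  rw [index_range_comp g f] at h5
  exact right_ne_zero_of_mul h5

/-- the cokernel of the test endomorphism -/
theorem index_tst (h : AppIdem p ε) : ∃ Q : ℕ, Q.Coprime p ∧
    ((tst p ε : AddMonoid.End B) : B →+ B).range.index = Q * cIdx p ε := by
  obtain ⟨V, h1, h2⟩ := exists_mul_eq h
  let f : B →+ B := ((tst p ε : AddMonoid.End B) : B →+ B)
  have hf : FinInd f := finInd_tst h
  have h3 : f.range.index = f.range.relIndex (mulN B p).range *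
      (f.range ⊔ (mulN B p).range).index := by
    rw [← AddSubgroup.relIndex_mul_index (le_sup_left : f.range ≤ f.range ⊔ (mulN B p).range),
      AddSubgroup.relIndex_sup_left]
  have h4 : f.range.relIndex (mulN B p).range ≠ 0 := by
    intro h0
    rw [h0, zero_mul] at h3
    exact hf.coker h3
  refine ⟨f.range.relIndex (mulN B p).range, ?_, ?_⟩
  · have h5 : f.range.relIndex (mulN B p).range =
      Nat.card (↥(mulN B p).range ⧸ f.range.addSubgroupOf (mulN B p).range) := rfl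
    rw [h5] at h4 ⊢
    haveI := Nat.finite_of_card_ne_zero h4
    refine coprime_card_of_surj fun x => ?_
    obtain ⟨⟨_, b, rfl⟩, rfl⟩ := QuotientAddGroup.mk'_surjective _ x
    refine ⟨QuotientAddGroup.mk' _ ⟨p • V b, V b, rfl⟩, ?_⟩
    rw [← map_nsmul, ← sub_eq_zero, ← map_sub]
    refine (QuotientAddGroup.eq_zero_iff _).mpr ?_
    rw [AddSubgroup.mem_addSubgroupOf]
    exact ⟨cts p ε b, mul_eq_apply h1 b⟩
  · rw [cIdx, ← range_sup h]
    exact h3

/-- the kernel of the test endomorphism -/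
theorem card_ker_tst (h : AppIdem p ε) : ∃ Q : ℕ, Q.Coprime p ∧
    Nat.card ((tst p ε : AddMonoid.End B) : B →+ B).ker = Q * kCard p ε := by
  obtain ⟨V, h1, h2⟩ := exists_mul_eq h
  let f : B →+ B := ((tst p ε : AddMonoid.End B) : B →+ B)
  have hf : FinInd f := finInd_tst h
  haveI : Finite f.ker := Nat.finite_of_card_ne_zero hf.ker
  let φ : f.ker →+ B := (mulN B p).comp f.ker.subtype
  have h3 : Nat.card φ.ker * Nat.card φ.range = Nat.card f.ker := by
    rw [← AddSubgroup.index_ker]; exact AddSubgroup.card_mul_index _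
  have h4 : Nat.card φ.ker = kCard p ε := by
    rw [kCard, ← ker_inf h]
    refine Nat.card_congr ⟨fun x => ⟨x.1.1, x.2, x.1.2⟩, fun x => ⟨⟨x.1, x.2.2⟩, x.2.1⟩,
      fun x => rfl, fun x => rfl⟩
  haveI : Finite φ.range := Finite.of_surjective φ.rangeRestrict φ.rangeRestrict_surjective
  refine ⟨Nat.card φ.range, ?_, by rw [← h4, mul_comm, h3]⟩
  refine coprime_card_of_inj ?_
  rintro ⟨_, ⟨x, hx⟩, rfl⟩ hy
  apply Subtype.ext
  show p • x = 0
  have hy' : p • (p • x) = 0 := congrArg Subtype.val hy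
  have h5 : cts p ε (tst p ε x) = p • x - p • (p • V x) := mul_eq_apply h2 x
  have h6 : tst p ε x = 0 := hx
  rw [h6, map_zero, ← map_nsmul, ← map_nsmul, hy', map_zero, sub_zero] at h5
  exact h5.symm

theorem exists_cIdx (_h : AppIdem p ε) : ∃ a : ℕ, cIdx p ε = p ^ a := by
  have h0 : cIdx p ε ≠ 0 := by
    intro h0
    have h1 := (finInd_mulN (A := B) hp.out.ne_zero).coker
    have h2 := AddSubgroup.index_dvd_of_le
      (le_sup_left : (mulN B p).range ≤ (mulN B p).range ⊔ ((1 - ε : AddMonoid.End B) : B →+ B).range)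
    rw [← cIdx, h0, zero_dvd_iff] at h2
    exact h1 h2
  have h1 : cIdx p ε = Nat.card (B ⧸ ((mulN B p).range ⊔
    ((1 - ε : AddMonoid.End B) : B →+ B).range)) := rfl
  rw [h1] at h0 ⊢
  haveI := Nat.finite_of_card_ne_zero h0
  refine exists_card_eq_pow fun x => ?_
  obtain ⟨y, rfl⟩ := QuotientAddGroup.mk'_surjective _ x
  rw [← map_nsmul]
  exact (QuotientAddGroup.eq_zero_iff _).mpr (AddSubgroup.mem_sup_left ⟨y, rfl⟩)

theorem exists_kCard : ∃ a : ℕ, kCard p ε = p ^ a := by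
  have h1 := (finInd_mulN (A := B) hp.out.ne_zero).ker
  haveI : Finite (mulN B p).ker := Nat.finite_of_card_ne_zero h1
  haveI : Finite ↥((mulN B p).ker ⊓ ((1 - ε : AddMonoid.End B) : B →+ B).ker) :=
    Finite.of_injective (AddSubgroup.inclusion inf_le_left) (AddSubgroup.inclusion_injective _)
  refine exists_card_eq_pow fun x => Subtype.ext x.2.1

end FG

end One

section Two

variable {B₁ B₂ : Type*} [AddCommGroup B₁] [AddCommGroup B₂] [Module.Finite ℤ B₁]
  [Module.Finite ℤ B₂] {p : ℕ} [hp : Fact p.Prime] {ε₁ : AddMonoid.End B₁} {ε₂ : AddMonoid.End B₂}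

theorem pow_eq_of_coprime {a b x y : ℕ} (hx : x.Coprime p) (hy : y.Coprime p)
    (h : p ^ a * x = p ^ b * y) : p ^ a = p ^ b := by
  have h1 : p ^ a ∣ p ^ b :=
    (Nat.Coprime.pow_left a hy.symm).dvd_of_dvd_mul_right (h ▸ dvd_mul_right _ _)
  have h2 : p ^ b ∣ p ^ a :=
    (Nat.Coprime.pow_left b hx.symm).dvd_of_dvd_mul_right (h.symm ▸ dvd_mul_right _ _)
  exact Nat.dvd_antisymm h1 h2

/-- **The lattice lemma** -/
theorem lattice_lemma (φ : B₁ →+ B₂) (hφ : FinInd φ) (h : ∀ b, φ (ε₁ b) = ε₂ (φ b))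
    (h1 : AppIdem p ε₁) (h2 : AppIdem p ε₂) :
    cIdx p ε₁ * kCard p ε₂ = cIdx p ε₂ * kCard p ε₁ := by
  have hcomm : ∀ b, φ ((tst p ε₁) b) = (tst p ε₂) (φ b) := by
    have hpow : ∀ (n : ℕ) b, φ ((ε₁ ^ n) b) = (ε₂ ^ n) (φ b) := by
      intro n
      induction n with
      | zero => intro b; rfl
      | succ n ih =>
        intro b
        rw [pow_succ, pow_succ]
        show φ ((ε₁ ^ n) (ε₁ b)) = (ε₂ ^ n) (ε₂ (φ b))
        rw [ih, h]
    have himp : ∀ b, φ (imp ε₁ b) = imp ε₂ (φ b) := by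
      intro b
      show φ (3 • (ε₁ ^ 2) b - 2 • (ε₁ ^ 3) b) = 3 • (ε₂ ^ 2) (φ b) - 2 • (ε₂ ^ 3) (φ b)
      rw [map_sub, map_nsmul, map_nsmul, hpow, hpow]
    intro b
    show φ (b + (p • imp ε₁ b - imp ε₁ b)) = φ b + (p • imp ε₂ (φ b) - imp ε₂ (φ b))
    rw [map_add, map_sub, map_nsmul, himp]
  have hf1 := finInd_tst h1
  have hf2 := finInd_tst h2
  have hc : φ.comp ((tst p ε₁ : AddMonoid.End B₁) : B₁ →+ B₁) =
      ((tst p ε₂ : AddMonoid.End B₂) : B₂ →+ B₂).comp φ := by
    ext b; exact hcomm b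
  have h3 := ind_comp hf1 hφ
  rw [hc, ind_comp hφ hf2, mul_comm] at h3
  have h4 := mul_left_cancel₀ (ind_ne_zero hφ) h3
  obtain ⟨q1, hq1, e1⟩ := index_tst h1
  obtain ⟨q2, hq2, e2⟩ := index_tst h2
  obtain ⟨r1, hr1, e3⟩ := card_ker_tst h1
  obtain ⟨r2, hr2, e4⟩ := card_ker_tst h2
  obtain ⟨a1, ha1⟩ := exists_cIdx h1
  obtain ⟨a2, ha2⟩ := exists_cIdx h2
  obtain ⟨b1, hb1⟩ := exists_kCard (p := p) (ε := ε₁)
  obtain ⟨b2, hb2⟩ := exists_kCard (p := p) (ε := ε₂)
  have n1 : (Nat.card ((tst p ε₁ : AddMonoid.End B₁) : B₁ →+ B₁).ker : ℚ) ≠ 0 := by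
    exact_mod_cast hf1.ker
  have n2 : (Nat.card ((tst p ε₂ : AddMonoid.End B₂) : B₂ →+ B₂).ker : ℚ) ≠ 0 := by
    exact_mod_cast hf2.ker
  unfold ind at h4
  rw [div_eq_div_iff n2 n1, e1, e2, e3, e4] at h4
  have h5 : q2 * cIdx p ε₂ * (r1 * kCard p ε₁) = q1 * cIdx p ε₁ * (r2 * kCard p ε₂) := by
    exact_mod_cast h4
  rw [ha1, ha2, hb1, hb2] at h5 ⊢
  rw [← pow_add, ← pow_add]
  refine pow_eq_of_coprime (x := q1 * r2) (y := q2 * r1) (Nat.Coprime.mul_left hq1 hr2)
    (Nat.Coprime.mul_left hq2 hr1) ?_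
  rw [pow_add, pow_add]
  linarith

/-- for finite modules -/
theorem cIdx_eq_kCard [Finite B₁] (h1 : AppIdem p ε₁) : cIdx p ε₁ = kCard p ε₁ := by
  let ε₀ : AddMonoid.End PUnit.{1} := 0
  have h0 : AppIdem p ε₀ := ⟨0, by simp [ε₀]⟩
  have h := lattice_lemma (ε₁ := ε₁) (ε₂ := ε₀) (0 : B₁ →+ PUnit) (finInd_of_finite _)
    (fun b => rfl) h1 h0
  have e1 : kCard p ε₀ = 1 := by
    rw [kCard, Nat.card_eq_one_iff_unique]
    exact ⟨inferInstance, ⟨0⟩⟩
  have e2 : cIdx p ε₀ = 1 := by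
    rw [cIdx, AddSubgroup.index_eq_one]
    exact Subsingleton.elim _ _
  rwa [e1, e2, mul_one, one_mul] at h

end Two

end Fermat.Agent.EqDir
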