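import Fermat.Agent.EqDir.Lat

set_option autoImplicit false
set_option maxHeartbeats 400000
set_option linter.style.haveILetI false
set_option linter.unusedSectionVars false

/-! Matrices over the group ring acting on powers of a `G`-module. -/

namespace Fermat.Agent.EqDir

open Fermat.Agent.CFT

section Act

variable {G : Type*} [Group G] {ι : Type*} [Fintype ι] [DecidableEq ι]
variable (A : Type*) [AddCommGroup A] [DistribMulAction G A]

/-- the action of the integral group ring -/
noncomputable def gact : MonoidAlgebra ℤ G →+* AddMonoid.End A :=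
  ((MonoidAlgebra.lift ℤ (AddMonoid.End A) G) (DistribMulAction.toAddMonoidEnd G A)).toRingHom

theorem gact_single (g : G) (n : ℤ) (a : A) :
    gact A (MonoidAlgebra.single g n) a = n • (g • a) := by
  have h : gact A (MonoidAlgebra.single g n) = n • DistribMulAction.toAddMonoidEnd G A g :=
    MonoidAlgebra.lift_single _ _ _
  rw [h]; rfl

variable {A} in
theorem gact_comm {B : Type*} [AddCommGroup B] [DistribMulAction G B] (φ : A →+ B)
    (h : ∀ (g : G) a, φ (g • a) = g • φ a) (x : MonoidAlgebra ℤ G) (a : A) :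
    φ (gact A x a) = gact B x (φ a) := by
  induction x using MonoidAlgebra.induction_linear with
  | zero => simp
  | add x y hx hy =>
    rw [map_add, map_add]
    show φ (gact A x a + gact A y a) = gact B x (φ a) + gact B y (φ a)
    rw [map_add, hx, hy]
  | single g n => rw [gact_single, gact_single, map_zsmul, h]

/-- the action of matrices over the group ring -/
noncomputable def mact : Matrix ι ι (MonoidAlgebra ℤ G) →+* AddMonoid.End (ι → A) where
  toFun E :=
    { toFun := fun v i => ∑ j, gact A (E i j) (v j)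
      map_zero' := by funext i; simp
      map_add' := by
        intro v w; funext i
        simp only [Pi.add_apply, map_add, Finset.sum_add_distrib] }
  map_one' := by
    ext v i
    show ∑ j, gact A ((1 : Matrix ι ι (MonoidAlgebra ℤ G)) i j) (v j) = v i
    rw [Finset.sum_eq_single i]
    · rw [Matrix.one_apply_eq, map_one]; rfl
    · intro j _ hj
      rw [Matrix.one_apply_ne hj.symm, map_zero]; rfl
    · intro h; exact absurd (Finset.mem_univ _) h
  map_mul' E F := by
    ext v i
    show ∑ j, gact A ((E * F) i j) (v j) = ∑ k, gact A (E i k) (∑ j, gact A (F k j) (v j))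
    simp only [Matrix.mul_apply, map_sum, map_mul]
    rw [Finset.sum_comm]
    refine Finset.sum_congr rfl fun j _ => ?_
    exact AddMonoidHom.finsetSum_apply _ _ _
  map_zero' := by
    ext v i
    show ∑ j, gact A ((0 : Matrix ι ι (MonoidAlgebra ℤ G)) i j) (v j) = 0
    simp
  map_add' E F := by
    ext v i
    show ∑ j, gact A ((E + F) i j) (v j) = ∑ j, gact A (E i j) (v j) + ∑ j, gact A (F i j) (v j)
    rw [← Finset.sum_add_distrib]
    refine Finset.sum_congr rfl fun j _ => ?_
    rw [Matrix.add_apply, map_add]; rfl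

theorem mact_apply (E : Matrix ι ι (MonoidAlgebra ℤ G)) (v : ι → A) (i : ι) :
    mact A E v i = ∑ j, gact A (E i j) (v j) := rfl

variable {A}

theorem mact_comm {B : Type*} [AddCommGroup B] [DistribMulAction G B] (φ : A →+ B)
    (h : ∀ (g : G) a, φ (g • a) = g • φ a) (E : Matrix ι ι (MonoidAlgebra ℤ G)) (v : ι → A) :
    φ.compLeft ι (mact A E v) = mact B E (φ.compLeft ι v) := by
  funext i
  show φ (∑ j, gact A (E i j) (v j)) = ∑ j, gact B (E i j) (φ (v j))
  rw [map_sum]
  exact Finset.sum_congr rfl fun j _ => gact_comm φ h _ _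

variable (A)

/-- approximate idempotents -/
def AppI (p : ℕ) (E : Matrix ι ι (MonoidAlgebra ℤ G)) : Prop :=
  ∃ N : Matrix ι ι (MonoidAlgebra ℤ G), E * E - E = p * N

theorem AppI.appIdem {p : ℕ} {E : Matrix ι ι (MonoidAlgebra ℤ G)} (h : AppI p E) :
    AppIdem p (mact A E) := by
  obtain ⟨N, hN⟩ := h
  refine ⟨mact A N, ?_⟩
  rw [← map_mul, ← map_sub, hN, map_mul, map_natCast]

/-- size of `e (A/p)^ι` -/
noncomputable def EC (p : ℕ) (E : Matrix ι ι (MonoidAlgebra ℤ G)) : ℕ := cIdx p (mact A E)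

/-- size of `e (A[p])^ι` -/
noncomputable def EK (p : ℕ) (E : Matrix ι ι (MonoidAlgebra ℤ G)) : ℕ := kCard p (mact A E)

end Act

section Main

variable {G : Type*} [Group G] {ι : Type*} [Fintype ι] [DecidableEq ι]
variable {A B : Type*} [AddCommGroup A] [DistribMulAction G A] [AddCommGroup B]
  [DistribMulAction G B]

theorem exists_mul_mem_range {φ : A →+ B} (hφ : φ.range.index ≠ 0) :
    ∃ n : ℕ, n ≠ 0 ∧ ∀ b : B, ∃ a : A, φ a = n • b :=
  ⟨φ.range.index, hφ, fun b => AddMonoidHom.mem_range.mp (AddSubgroup.nsmul_index_mem φ.range b)⟩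

theorem finInd_compLeft [Module.Finite ℤ B] {φ : A →+ B} (hφ : FinInd φ) :
    FinInd (φ.compLeft ι) := by
  refine ⟨?_, ?_⟩
  · haveI : Finite φ.ker := Nat.finite_of_card_ne_zero hφ.ker
    let f : (φ.compLeft ι).ker → (ι → φ.ker) := fun v i => ⟨v.1 i, congrFun v.2 i⟩
    have hf : Function.Injective f := fun v w h => Subtype.ext (funext fun i =>
      congrArg Subtype.val (congrFun h i))
    haveI := Finite.of_injective f hf
    exact Nat.card_pos.ne'
  · obtain ⟨n, hn, h⟩ := exists_mul_mem_range hφ.coker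
    have h1 := (finInd_mulN (A := ι → B) hn).coker
    have h2 : (mulN (ι → B) n).range ≤ (φ.compLeft ι).range := by
      rintro _ ⟨v, rfl⟩
      choose a ha using fun i => h (v i)
      exact ⟨a, funext ha⟩
    intro h0
    have h3 := AddSubgroup.index_dvd_of_le h2
    rw [h0, zero_dvd_iff] at h3
    exact h1 h3

variable {p : ℕ} [hp : Fact p.Prime] {E : Matrix ι ι (MonoidAlgebra ℤ G)}

/-- **Isogeny invariance** -/
theorem EC_mul_EK_of_isogeny [Module.Finite ℤ A] [Module.Finite ℤ B] (hE : AppI p E) (φ : A →+ B)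
    (h : ∀ (g : G) a, φ (g • a) = g • φ a) (hφ : FinInd φ) :
    EC A p E * EK B p E = EC B p E * EK A p E :=
  lattice_lemma (φ.compLeft ι) (finInd_compLeft hφ) (mact_comm φ h E) (hE.appIdem A)
    (hE.appIdem B)

/-- **Finite modules** -/
theorem EC_eq_EK_of_finite [Finite A] (hE : AppI p E) : EC A p E = EK A p E := by
  haveI : Module.Finite ℤ A := Module.Finite.of_finite ..
  exact cIdx_eq_kCard (hE.appIdem A)

theorem exists_EC [Module.Finite ℤ A] (hE : AppI p E) : ∃ a : ℕ, EC A p E = p ^ a :=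
  exists_cIdx (hE.appIdem A)

theorem exists_EK [Module.Finite ℤ A] : ∃ a : ℕ, EK A p E = p ^ a := exists_kCard

theorem mem_kGrp {v : ι → A} : v ∈ (mulN (ι → A) p).ker ⊓
    ((1 - mact A E : AddMonoid.End (ι → A)) : (ι → A) →+ (ι → A)).ker ↔
    (∀ i, p • v i = 0) ∧ mact A E v = v := by
  rw [AddSubgroup.mem_inf]
  refine and_congr ⟨fun h i => congrFun h i, fun h => funext h⟩ ?_
  show v - mact A E v = 0 ↔ _
  rw [sub_eq_zero]
  exact ⟨Eq.symm, Eq.symm⟩

theorem EK_eq : EK A p E = Nat.card {v : ι → A // (∀ i, p • v i = 0) ∧ mact A E v = v} :=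
  Nat.card_congr (Equiv.subtypeEquivRight fun _ => mem_kGrp)

/-- an equivariant map bijective on `p`-torsion -/
theorem EK_congr (φ : A →+ B) (h : ∀ (g : G) a, φ (g • a) = g • φ a)
    (hinj : ∀ a, p • a = 0 → φ a = 0 → a = 0) (hsurj : ∀ b, p • b = 0 → ∃ a, p • a = 0 ∧ φ a = b) :
    EK A p E = EK B p E := by
  rw [EK_eq, EK_eq]
  refine Nat.card_congr (Equiv.ofBijective (fun v => ⟨fun i => φ (v.1 i), fun i => ?_, ?_⟩) ⟨?_, ?_⟩)
  · rw [← map_nsmul, v.2.1 i, map_zero]
  · have h1 := mact_comm φ h E v.1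
    rw [v.2.2] at h1
    exact h1.symm
  · intro v w hvw
    apply Subtype.ext
    funext i
    have h1 : φ (v.1 i) = φ (w.1 i) := congrFun (congrArg Subtype.val hvw) i
    rw [← sub_eq_zero]
    refine hinj _ ?_ ?_
    · rw [smul_sub, v.2.1, w.2.1, sub_zero]
    · rw [map_sub, h1, sub_self]
  · rintro ⟨w, hw1, hw2⟩
    choose a ha1 ha2 using fun i => hsurj (w i) (hw1 i)
    have h1 : φ.compLeft ι a = w := funext ha2
    refine ⟨⟨a, ha1, ?_⟩, Subtype.ext h1⟩
    have h2 := mact_comm φ h E a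
    rw [h1, hw2, ← h1] at h2
    funext i
    have h3 : φ (mact A E a i) = φ (a i) := congrFun h2 i
    rw [← sub_eq_zero]
    refine hinj _ ?_ ?_
    · rw [smul_sub, ha1 i, sub_zero, ← Pi.smul_apply, ← map_nsmul,
        show p • a = 0 from funext ha1, map_zero]
      rfl
    · rw [map_sub, h3, sub_self]

theorem EK_eq_one (h : ∀ a : A, p • a = 0 → a = 0) : EK A p E = 1 := by
  rw [EK_eq, Nat.card_eq_one_iff_unique]
  refine ⟨⟨fun v w => Subtype.ext (funext fun i => ?_)⟩, ⟨⟨0, by simp, map_zero _⟩⟩⟩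
  rw [h _ (v.2.1 i), h _ (w.2.1 i)]

theorem gact_prod (x : MonoidAlgebra ℤ G) (a : A × B) :
    gact (A × B) x a = (gact A x a.1, gact B x a.2) :=
  Prod.ext (gact_comm (AddMonoidHom.fst A B) (fun _ _ => rfl) x a)
    (gact_comm (AddMonoidHom.snd A B) (fun _ _ => rfl) x a)

theorem mact_fst (v : ι → A × B) (i : ι) :
    (mact (A × B) E v i).1 = mact A E (fun i => (v i).1) i :=
  congrFun (mact_comm (AddMonoidHom.fst A B) (fun _ _ => rfl) E v) i

theorem mact_snd (v : ι → A × B) (i : ι) :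
    (mact (A × B) E v i).2 = mact B E (fun i => (v i).2) i :=
  congrFun (mact_comm (AddMonoidHom.snd A B) (fun _ _ => rfl) E v) i

theorem EK_prod : EK (A × B) p E = EK A p E * EK B p E := by
  rw [EK_eq, EK_eq, EK_eq, ← Nat.card_prod]
  refine Nat.card_congr
    { toFun := fun v => (⟨fun i => (v.1 i).1, fun i => congrArg Prod.fst (v.2.1 i), ?_⟩,
        ⟨fun i => (v.1 i).2, fun i => congrArg Prod.snd (v.2.1 i), ?_⟩)
      invFun := fun w => ⟨fun i => (w.1.1 i, w.2.1 i), fun i => Prod.ext (w.1.2.1 i) (w.2.2.1 i), ?_⟩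
      left_inv := fun v => rfl
      right_inv := fun w => rfl }
  · funext i
    rw [← mact_fst, v.2.2]
  · funext i
    rw [← mact_snd, v.2.2]
  · funext i
    refine Prod.ext ?_ ?_
    · rw [mact_fst]; exact congrFun w.1.2.2 i
    · rw [mact_snd]; exact congrFun w.2.2.2 i

/-- the group `pA^ι + (1-ε)A^ι` -/
noncomputable def cGrp (A : Type*) [AddCommGroup A] [DistribMulAction G A] (p : ℕ)
    (E : Matrix ι ι (MonoidAlgebra ℤ G)) : AddSubgroup (ι → A) :=
  (mulN (ι → A) p).range ⊔ ((1 - mact A E : AddMonoid.End (ι → A)) : (ι → A) →+ (ι → A)).range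

theorem mem_cGrp {v : ι → A} : v ∈ cGrp A p E ↔ ∃ x y : ι → A, v = p • x + (y - mact A E y) := by
  rw [cGrp, AddSubgroup.mem_sup]
  constructor
  · rintro ⟨_, ⟨x, rfl⟩, _, ⟨y, rfl⟩, rfl⟩
    exact ⟨x, y, rfl⟩
  · rintro ⟨x, y, rfl⟩
    exact ⟨_, ⟨x, rfl⟩, _, ⟨y, rfl⟩, rfl⟩

theorem EC_eq : EC A p E = (cGrp A p E).index := rfl

theorem EC_prod : EC (A × B) p E = EC A p E * EC B p E := by
  rw [EC_eq, EC_eq, EC_eq]
  have h1 : (cGrp A p E).index = Nat.card ((ι → A) ⧸ cGrp A p E) := rfl
  have h2 : (cGrp B p E).index = Nat.card ((ι → B) ⧸ cGrp B p E) := rfl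
  rw [h1, h2, ← Nat.card_prod]
  let φ : (ι → A × B) →+ ((ι → A) ⧸ cGrp A p E) × ((ι → B) ⧸ cGrp B p E) :=
    { toFun := fun v => (QuotientAddGroup.mk' _ fun i => (v i).1,
        QuotientAddGroup.mk' _ fun i => (v i).2)
      map_zero' := rfl
      map_add' := fun _ _ => rfl }
  have hφ : φ.ker = cGrp (A × B) p E := by
    ext v
    rw [AddMonoidHom.mem_ker, mem_cGrp]
    have e1 : φ v = 0 ↔ (fun i => (v i).1) ∈ cGrp A p E ∧ (fun i => (v i).2) ∈ cGrp B p E := by
      rw [Prod.ext_iff]
      exact and_congr (QuotientAddGroup.eq_zero_iff _) (QuotientAddGroup.eq_zero_iff _)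
    rw [e1, mem_cGrp, mem_cGrp]
    constructor
    · rintro ⟨⟨x, y, hxy⟩, ⟨x', y', hxy'⟩⟩
      refine ⟨fun i => (x i, x' i), fun i => (y i, y' i), funext fun i => Prod.ext ?_ ?_⟩
      · show (v i).1 = p • x i + (y i - (mact (A × B) E (fun i => (y i, y' i)) i).1)
        rw [mact_fst]; exact congrFun hxy i
      · show (v i).2 = p • x' i + (y' i - (mact (A × B) E (fun i => (y i, y' i)) i).2)
        rw [mact_snd]; exact congrFun hxy' i
    · rintro ⟨x, y, rfl⟩
      refine ⟨⟨fun i => (x i).1, fun i => (y i).1, funext fun i => ?_⟩,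
        ⟨fun i => (x i).2, fun i => (y i).2, funext fun i => ?_⟩⟩
      · show p • (x i).1 + ((y i).1 - (mact (A × B) E y i).1) = _
        rw [mact_fst]; rfl
      · show p • (x i).2 + ((y i).2 - (mact (A × B) E y i).2) = _
        rw [mact_snd]; rfl
  have hsurj : Function.Surjective φ := by
    rintro ⟨a, b⟩
    obtain ⟨a, rfl⟩ := QuotientAddGroup.mk'_surjective _ a
    obtain ⟨b, rfl⟩ := QuotientAddGroup.mk'_surjective _ b
    exact ⟨fun i => (a i, b i), rfl⟩
  rw [← hφ, AddSubgroup.index_ker, AddMonoidHom.range_eq_top.mpr hsurj,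
    Nat.card_congr (AddSubgroup.topEquiv).toEquiv]

/-- an equivariant map inducing a bijection mod `p` -/
theorem EC_congr (φ : A →+ B) (h : ∀ (g : G) a, φ (g • a) = g • φ a)
    (hsurj : ∀ b, ∃ a c, b = φ a + p • c) (hinj : ∀ a c, φ a = p • c → ∃ a', a = p • a') :
    EC A p E = EC B p E := by
  rw [EC_eq, EC_eq]
  have h1 : (cGrp B p E).comap (φ.compLeft ι) = cGrp A p E := by
    ext v
    rw [AddSubgroup.mem_comap, mem_cGrp, mem_cGrp]
    constructor
    · rintro ⟨x, y, hxy⟩
      choose a c hc using fun i => hsurj (y i)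
      have hy : y = φ.compLeft ι a + p • c := funext hc
      have h2 : φ.compLeft ι (v - (a - mact A E a)) = p • (x + (c - mact B E c)) := by
        rw [map_sub, map_sub, hxy, mact_comm φ h, hy, map_add, map_nsmul]
        simp only [smul_add, smul_sub]
        abel
      choose a' ha' using fun i => hinj _ _ (congrFun h2 i)
      refine ⟨a', a, ?_⟩
      have h3 : v - (a - mact A E a) = p • a' := funext ha'
      rw [← h3]; abel
    · rintro ⟨x, y, rfl⟩
      refine ⟨φ.compLeft ι x, φ.compLeft ι y, ?_⟩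
      rw [map_add, map_nsmul, map_sub, mact_comm φ h]
  rw [← h1, AddSubgroup.index_comap, ← AddSubgroup.relIndex_sup_left]
  have h2 : cGrp B p E ⊔ (φ.compLeft ι).range = ⊤ := by
    rw [eq_top_iff]
    intro w _
    choose a c hc using fun i => hsurj (w i)
    have hw : w = p • c + φ.compLeft ι a := by rw [add_comm]; exact funext hc
    rw [hw]
    exact AddSubgroup.add_mem _ (AddSubgroup.mem_sup_left (AddSubgroup.mem_sup_left ⟨c, rfl⟩))
      (AddSubgroup.mem_sup_right ⟨a, rfl⟩)
  rw [h2, AddSubgroup.relIndex_top_right]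

end Main

end Fermat.Agent.EqDir
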