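import Fermat.Agent.EqDir.Iso

set_option autoImplicit false
set_option maxHeartbeats 400000
set_option linter.style.haveILetI false
set_option linter.unusedSectionVars false

/-! The equivariant `S`-unit theorem modulo `p` for projective modules (W1). -/

namespace Fermat.Agent.EqDir

open Fermat.Agent.CFT NumberField IsDedekindDomain WithZero

section mod

variable {G : Type*} [Group G] {ι : Type*} [Fintype ι] [DecidableEq ι]
variable {p : ℕ} [hp : Fact p.Prime] {E : Matrix ι ι (MonoidAlgebra ℤ G)}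
variable {P : Type*} [MulAction G P]

/-- reduction mod `p` of functions -/
def redF (P : Type*) (p : ℕ) : PFun P ℤ →+ PFun P (ZMod p) where
  toFun f w := ((f w : ℤ) : ZMod p)
  map_zero' := funext fun _ => Int.cast_zero
  map_add' _ _ := funext fun _ => Int.cast_add _ _

/-- reduction mod `p` -/
def redT (p : ℕ) : Triv ℤ →+ Triv (ZMod p) := (Int.castAddHom (ZMod p) : ℤ →+ ZMod p)

theorem zmod_smul (x : ZMod p) : p • x = 0 := by
  rw [nsmul_eq_mul, CharP.cast_eq_zero, zero_mul]

theorem EC_PFun : EC (PFun P ℤ) p E = EC (PFun P (ZMod p)) p E := by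
  refine EC_congr (redF P p) (fun g f => rfl) (fun b => ?_) (fun a c h => ?_)
  · refine ⟨fun w => ((b w).val : ℤ), 0, ?_⟩
    rw [smul_zero, add_zero]
    funext w
    show b w = (((b w).val : ℤ) : ZMod p)
    rw [Int.cast_natCast, ZMod.natCast_zmod_val]
  · have h1 : ∀ w, ∃ k : ℤ, a w = p * k := by
      intro w
      have h2 : ((a w : ℤ) : ZMod p) = 0 := by
        have h3 : ((a w : ℤ) : ZMod p) = p • (c w) := congrFun h w
        rw [h3, zmod_smul]
      exact (ZMod.intCast_zmod_eq_zero_iff_dvd _ _).mp h2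
    choose k hk using h1
    refine ⟨k, funext fun w => ?_⟩
    show a w = p • (k w)
    rw [hk, nsmul_eq_mul]

theorem EC_Triv : EC (G := G) (Triv ℤ) p E = EC (G := G) (Triv (ZMod p)) p E := by
  refine EC_congr (redT p) (fun g f => rfl) (fun (b : ZMod p) => ?_) (fun (a : ℤ) (c : ZMod p) h => ?_)
  · refine ⟨((b.val : ℕ) : ℤ), 0, ?_⟩
    rw [smul_zero, add_zero]
    show b = (((b.val : ℕ) : ℤ) : ZMod p)
    rw [Int.cast_natCast, ZMod.natCast_zmod_val]
  · have h1 : ∃ k : ℤ, a = p * k := by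
      have h2 : (a : ZMod p) = 0 := by
        have h3 : (a : ZMod p) = p • c := h
        rw [h3, zmod_smul]
      exact (ZMod.intCast_zmod_eq_zero_iff_dvd _ _).mp h2
    obtain ⟨k, hk⟩ := h1
    refine ⟨k, ?_⟩
    show a = p • k
    rw [hk, nsmul_eq_mul]

end mod

section main

variable {K G U : Type*} [Field K] [NumberField K] [Group G] [Fintype G] [DecidableEq G]
    [MulSemiringAction G K]
    [AddCommGroup U] [DistribMulAction G U] {Sf : Set (HeightOneSpectrum (𝓞 K))} [Finite Sf]
    [MulAction G Sf] [MulAction G (InfinitePlace K)] (D : SData K G U Sf)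
    {p : ℕ} [hp : Fact p.Prime]

include D

/-- idempotent form -/
theorem eqdir_E {ι : Type*} [Fintype ι] [DecidableEq ι] {E : Matrix ι ι (MonoidAlgebra ℤ G)}
    (hE : AppI p E) : EC U p E * EC (G := G) (Triv ℤ) p E =
      EK U p E * EC (PFun (Sf ⊕ InfinitePlace K) ℤ) p E := by
  classical
  haveI := Fintype.ofFinite Sf
  obtain ⟨Φ, h1, h2⟩ := D.exists_isogeny
  haveI := D.fg'.1
  haveI : Module.Finite ℤ (PFun (Sf ⊕ InfinitePlace K) ℤ) :=
    inferInstanceAs (Module.Finite ℤ (Sf ⊕ InfinitePlace K → ℤ))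
  have h3 := EC_mul_EK_of_isogeny hE Φ h1 h2
  have h4 : EK (PFun (Sf ⊕ InfinitePlace K) ℤ) p E = 1 := by
    refine EK_eq_one fun a ha => funext fun w => ?_
    have h5 : p • (a w) = 0 := congrFun ha w
    rw [nsmul_eq_mul] at h5
    rcases mul_eq_zero.mp h5 with h | h
    · exact absurd (by exact_mod_cast h) hp.out.ne_zero
    · exact h
  have h4' : EK (G := G) (Triv ℤ) p E = 1 := by
    refine EK_eq_one fun a ha => ?_
    have h5 : p • (show ℤ from a) = 0 := ha
    rw [nsmul_eq_mul] at h5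
    rcases mul_eq_zero.mp h5 with h | h
    · exact absurd (by exact_mod_cast h) hp.out.ne_zero
    · exact h
  rw [EK_prod, EC_prod, h4, h4', mul_one, mul_one] at h3
  rw [← h3, mul_comm]

theorem finite_U : Module.Finite ℤ U := by
  haveI := D.fg'.1
  exact Module.Finite.of_surjective (LinearMap.fst ℤ U (Triv ℤ)) LinearMap.fst_surjective

/-- **W1: the equivariant `S`-unit theorem modulo `p`**, for a projective module `X`, the module
`W = U / p` and the module `M = U[p]`. -/
theorem eqdir {X W M : Type*} [AddCommGroup X] [DistribMulAction G X] [AddCommGroup W]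
    [DistribMulAction G W] [AddCommGroup M] [DistribMulAction G M] {m : ℕ}
    (s : X →+ FM G m p) (r : FM G m p →+ X)
    (hs : ∀ (g : G) x, s (g • x) = g • s x) (hr : ∀ (g : G) f, r (g • f) = g • r f)
    (hrs : ∀ x, r (s x) = x)
    (π : U →+ W) (hπ : Function.Surjective π) (hπG : ∀ (g : G) u, π (g • u) = g • π u)
    (hπk : ∀ u, π u = 0 ↔ ∃ v, u = p • v)
    (i : M →+ U) (hi : Function.Injective i) (hiG : ∀ (g : G) x, i (g • x) = g • i x)
    (hir : ∀ u, p • u = 0 ↔ ∃ x, i x = u) :
    Nat.card (HomG G X W) * Nat.card (HomG G X (Triv (ZMod p))) =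
      Nat.card (HomG G X M) * Nat.card (HomG G X (PFun (Sf ⊕ InfinitePlace K) (ZMod p))) := by
  classical
  haveI := Fintype.ofFinite Sf
  haveI := finite_U D
  have hW : ∀ a : W, p • a = 0 := by
    intro a
    obtain ⟨u, rfl⟩ := hπ a
    rw [← map_nsmul]
    exact (hπk _).mpr ⟨u, rfl⟩
  have hM : ∀ a : M, p • a = 0 := by
    intro a
    apply hi
    rw [map_nsmul, map_zero]
    exact (hir _).mpr ⟨a, rfl⟩
  have hT : ∀ a : Triv (ZMod p), p • a = 0 := fun a => zmod_smul (p := p) a
  have hP : ∀ a : PFun (Sf ⊕ InfinitePlace K) (ZMod p), p • a = 0 := fun a =>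
    funext fun w => zmod_smul (p := p) (a w)
  haveI : Finite W := by
    have h1 := (finInd_mulN (A := U) hp.out.ne_zero).coker
    have h2 : π.ker = (mulN U p).range := by
      ext u
      rw [AddMonoidHom.mem_ker, hπk]
      exact ⟨fun ⟨v, hv⟩ => ⟨v, hv.symm⟩, fun ⟨v, hv⟩ => ⟨v, hv.symm⟩⟩
    rw [← h2, AddSubgroup.index_ker, AddMonoidHom.range_eq_top.mpr hπ,
      Nat.card_congr (AddSubgroup.topEquiv).toEquiv] at h1
    exact Nat.finite_of_card_ne_zero h1
  haveI : Finite (Triv (ZMod p)) := inferInstanceAs (Finite (ZMod p))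
  haveI : Finite (PFun (Sf ⊕ InfinitePlace K) (ZMod p)) :=
    inferInstanceAs (Finite (Sf ⊕ InfinitePlace K → ZMod p))
  set e := s.comp r with he
  have hE : AppI p (matE e) := appI_matE e
    (fun g f => by show s (r (g • f)) = g • s (r f); rw [hr, hs])
    (fun f => by show s (r (s (r f))) = s (r f); rw [hrs])
  rw [card_HomG s r hs hr hrs hW, card_HomG s r hs hr hrs hT, card_HomG s r hs hr hrs hM,
    card_HomG s r hs hr hrs hP, ← he, ← EC_eq_EK_of_finite (A := W) hE,
    ← EC_eq_EK_of_finite (A := Triv (ZMod p)) hE,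
    ← EC_eq_EK_of_finite (A := PFun (Sf ⊕ InfinitePlace K) (ZMod p)) hE, ← EC_Triv, ← EC_PFun]
  have h1 : EC U p (matE e) = EC W p (matE e) := by
    refine EC_congr π hπG (fun b => ?_) (fun a c h => ?_)
    · obtain ⟨u, rfl⟩ := hπ b
      exact ⟨u, 0, by rw [smul_zero, add_zero]⟩
    · rw [hW] at h
      exact (hπk a).mp h
  have h2 : EK M p (matE e) = EK U p (matE e) := by
    refine EK_congr i hiG (fun a _ h => hi (by rw [h, map_zero])) (fun b hb => ?_)
    obtain ⟨x, hx⟩ := (hir b).mp hb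
    exact ⟨x, hM x, hx⟩
  rw [← h1, h2]
  exact eqdir_E D hE

end main

end Fermat.Agent.EqDir
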