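import Fermat.Agent.EqDir.Mact

set_option autoImplicit false
set_option maxHeartbeats 400000
set_option linter.style.haveILetI false
set_option linter.unusedSectionVars false

/-! Projective modules and idempotent matrices. -/

namespace Fermat.Agent.EqDir

open Fermat.Agent.CFT

/-- equivariant homomorphisms -/
def HomG (G X A : Type*) [Group G] [AddCommGroup X] [DistribMulAction G X] [AddCommGroup A]
    [DistribMulAction G A] : Type _ :=
  {φ : X →+ A // ∀ (g : G) (x : X), φ (g • x) = g • φ x}

section Val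

variable {p : ℕ} [hp : Fact p.Prime] {A : Type*} [AddCommGroup A]

theorem mod_smul {a : A} (ha : p • a = 0) (n : ℕ) : (n % p) • a = n • a := by
  conv_rhs => rw [← Nat.mod_add_div n p, add_smul, mul_comm, mul_smul, ha, smul_zero, add_zero]

theorem val_add_smul {a : A} (ha : p • a = 0) (x y : ZMod p) :
    (x + y).val • a = x.val • a + y.val • a := by
  rw [ZMod.val_add, mod_smul ha, add_smul]

theorem val_intCast_smul {a : A} (ha : p • a = 0) (n : ℤ) :
    ((n : ZMod p).val : ℤ) • a = n • a := by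
  rw [ZMod.val_intCast]
  conv_rhs => rw [← Int.emod_add_mul_ediv n p, add_smul, mul_comm, mul_smul, natCast_zsmul, ha,
    smul_zero, add_zero]

end Val

section Proj

variable {G : Type*} [Group G] {m : ℕ} {p : ℕ} [hp : Fact p.Prime]

/-- the free module -/
def FM (G : Type*) (m p : ℕ) : Type _ := Fin m → G → ZMod p

instance : AddCommGroup (FM G m p) := inferInstanceAs (AddCommGroup (Fin m → G → ZMod p))

instance : DistribMulAction G (FM G m p) where
  smul g f := fun i x => f i (g⁻¹ * x)
  one_smul f := by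
    funext i x
    show f i (1⁻¹ * x) = f i x
    rw [inv_one, one_mul]
  mul_smul g h f := by
    funext i x
    show f i ((g * h)⁻¹ * x) = f i (h⁻¹ * (g⁻¹ * x))
    rw [mul_inv_rev, mul_assoc]
  smul_zero g := rfl
  smul_add g f f' := rfl

theorem FM.smul_apply (g : G) (f : FM G m p) (i : Fin m) (x : G) : (g • f) i x = f i (g⁻¹ * x) := rfl

variable [Fintype G] [DecidableEq G]

/-- the basis of the free module -/
def dlt (i : Fin m) (h : G) : FM G m p := Pi.single i (Pi.single h 1)

theorem smul_dlt (g : G) (i : Fin m) (h : G) : g • (dlt i h : FM G m p) = dlt i (g * h) := by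
  funext j x
  rw [FM.smul_apply]
  unfold dlt
  by_cases hj : j = i
  · subst hj
    rw [Pi.single_eq_same, Pi.single_eq_same]
    by_cases hx : x = g * h
    · subst hx
      rw [inv_mul_cancel_left, Pi.single_eq_same, Pi.single_eq_same]
    · rw [Pi.single_eq_of_ne hx, Pi.single_eq_of_ne]
      intro h'
      exact hx (by rw [← h', mul_inv_cancel_left])
  · rw [Pi.single_eq_of_ne hj, Pi.single_eq_of_ne hj]; rfl

/-- evaluation -/
def evF (j : Fin m) (x : G) : FM G m p →+ ZMod p where
  toFun f := f j x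
  map_zero' := rfl
  map_add' _ _ := rfl

theorem FM.expand (f : FM G m p) : f = ∑ i, ∑ h, (f i h).val • (dlt i h : FM G m p) := by
  funext j x
  have h1 : (∑ i, ∑ h, (f i h).val • (dlt i h : FM G m p)) j x =
      ∑ i, ∑ h, (f i h).val • ((dlt i h : FM G m p) j x) := by
    show evF j x (∑ i, ∑ h, (f i h).val • (dlt i h : FM G m p)) = _
    rw [map_sum]
    refine Finset.sum_congr rfl fun i _ => ?_
    rw [map_sum]
    exact Finset.sum_congr rfl fun h _ => map_nsmul _ _ _
  rw [h1, Finset.sum_eq_single j, Finset.sum_eq_single x]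
  · show _ = (f j x).val • (Pi.single j (Pi.single x (1 : ZMod p)) : Fin m → G → ZMod p) j x
    rw [Pi.single_eq_same, Pi.single_eq_same, nsmul_eq_mul, mul_one, ZMod.natCast_zmod_val]
  · intro h _ hne
    show (f j h).val • (Pi.single j (Pi.single h (1 : ZMod p)) : Fin m → G → ZMod p) j x = 0
    rw [Pi.single_eq_same, Pi.single_eq_of_ne hne.symm, smul_zero]
  · intro h; exact absurd (Finset.mem_univ _) h
  · intro i _ hne
    refine Finset.sum_eq_zero fun h _ => ?_
    show (f i h).val • (Pi.single i (Pi.single h (1 : ZMod p)) : Fin m → G → ZMod p) j x = 0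
    rw [Pi.single_eq_of_ne hne.symm]; simp
  · intro h; exact absurd (Finset.mem_univ _) h

theorem hom_eq {B : Type*} [AddCommGroup B] (φ : FM G m p →+ B) (f : FM G m p) :
    φ f = ∑ i, ∑ h, (f i h).val • φ (dlt i h) := by
  conv_lhs => rw [FM.expand f]
  rw [map_sum]
  refine Finset.sum_congr rfl fun i _ => ?_
  rw [map_sum]
  exact Finset.sum_congr rfl fun h _ => map_nsmul _ _ _

/-- the homomorphism attached to a vector -/
def Th {A : Type*} [AddCommGroup A] [DistribMulAction G A] (hA : ∀ a : A, p • a = 0)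
    (v : Fin m → A) : FM G m p →+ A where
  toFun f := ∑ i, ∑ h, (f i h).val • (h • v i)
  map_zero' := by
    refine Finset.sum_eq_zero fun i _ => Finset.sum_eq_zero fun h _ => ?_
    show (0 : ZMod p).val • _ = _
    rw [ZMod.val_zero, zero_smul]
  map_add' f f' := by
    rw [← Finset.sum_add_distrib]
    refine Finset.sum_congr rfl fun i _ => ?_
    rw [← Finset.sum_add_distrib]
    refine Finset.sum_congr rfl fun h _ => ?_
    exact val_add_smul (hA _) _ _

variable {A : Type*} [AddCommGroup A] [DistribMulAction G A]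

theorem Th_smul (hA : ∀ a : A, p • a = 0) (v : Fin m → A) (g : G) (f : FM G m p) :
    Th hA v (g • f) = g • Th hA v f := by
  show ∑ i, ∑ h, (f i (g⁻¹ * h)).val • (h • v i) = g • ∑ i, ∑ h, (f i h).val • (h • v i)
  rw [Finset.smul_sum]
  refine Finset.sum_congr rfl fun i _ => ?_
  rw [Finset.smul_sum, ← Equiv.sum_comp (Equiv.mulLeft g)]
  refine Finset.sum_congr rfl fun h _ => ?_
  rw [Equiv.coe_mulLeft, inv_mul_cancel_left, mul_smul]
  exact (smul_comm _ _ _)

theorem Th_dlt (hA : ∀ a : A, p • a = 0) (v : Fin m → A) (i : Fin m) (h : G) :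
    Th hA v (dlt i h) = h • v i := by
  show ∑ j, ∑ k, ((dlt i h : FM G m p) j k).val • (k • v j) = _
  rw [Finset.sum_eq_single i, Finset.sum_eq_single h]
  · unfold dlt
    rw [Pi.single_eq_same, Pi.single_eq_same, ZMod.val_one, one_smul]
  · intro k _ hk
    unfold dlt
    rw [Pi.single_eq_same, Pi.single_eq_of_ne hk, ZMod.val_zero, zero_smul]
  · intro h; exact absurd (Finset.mem_univ _) h
  · intro j _ hj
    refine Finset.sum_eq_zero fun k _ => ?_
    unfold dlt
    rw [Pi.single_eq_of_ne hj, Pi.zero_apply, ZMod.val_zero, zero_smul]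
  · intro h; exact absurd (Finset.mem_univ _) h

/-- the matrix of an endomorphism -/
noncomputable def matE (e : FM G m p →+ FM G m p) : Matrix (Fin m) (Fin m) (MonoidAlgebra ℤ G) :=
  fun i j => ∑ h, MonoidAlgebra.single h ((e (dlt i 1) j h).val : ℤ)

theorem mact_matE (hA : ∀ a : A, p • a = 0) (e : FM G m p →+ FM G m p) (v : Fin m → A)
    (i : Fin m) : mact A (matE e) v i = Th hA v (e (dlt i 1)) := by
  rw [mact_apply]
  show _ = ∑ j, ∑ h, (e (dlt i 1) j h).val • (h • v j)
  refine Finset.sum_congr rfl fun j _ => ?_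
  rw [matE, map_sum]
  have h1 : (∑ h, gact A (MonoidAlgebra.single h ((e (dlt i 1) j h).val : ℤ))) (v j) =
      ∑ h, gact A (MonoidAlgebra.single h ((e (dlt i 1) j h).val : ℤ)) (v j) :=
    AddMonoidHom.finsetSum_apply _ _ _
  rw [h1]
  refine Finset.sum_congr rfl fun h _ => ?_
  rw [gact_single, natCast_zsmul]

theorem mact_matE_comp (hA : ∀ a : A, p • a = 0) (e : FM G m p →+ FM G m p)
    (he : ∀ (g : G) f, e (g • f) = g • e f) (hee : ∀ f, e (e f) = e f) (v : Fin m → A) :
    mact A (matE e) (mact A (matE e) v) = mact A (matE e) v := by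
  funext i
  rw [mact_matE hA, mact_matE hA]
  have h1 : Th hA v (e (dlt i 1)) = ((Th hA v).comp e) (e (dlt i 1)) := by
    show _ = Th hA v (e (e (dlt i 1))); rw [hee]
  rw [h1, hom_eq (Th hA (mact A (matE e) v)), hom_eq ((Th hA v).comp e)]
  refine Finset.sum_congr rfl fun j _ => Finset.sum_congr rfl fun h _ => ?_
  rw [Th_dlt, mact_matE hA, ← Th_smul, ← he, smul_dlt, mul_one]
  rfl

theorem gact_dlt (x : MonoidAlgebra ℤ G) (h : G) :
    gact (FM G 1 p) x (dlt 0 1) 0 h = (x.coeff h : ZMod p) := by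
  induction x using MonoidAlgebra.induction_linear with
  | zero => rw [map_zero]; simp; rfl
  | add x y hx hy =>
    rw [map_add, MonoidAlgebra.coeff_add, Finsupp.add_apply, Int.cast_add, ← hx, ← hy]; rfl
  | single g n =>
    rw [gact_single, smul_dlt, mul_one, MonoidAlgebra.coeff_single]
    show n • (Pi.single (0 : Fin 1) (Pi.single g (1 : ZMod p)) : Fin 1 → G → ZMod p) 0 h = _
    rw [Pi.single_eq_same]
    by_cases hg : h = g
    · subst hg
      rw [Pi.single_eq_same, Finsupp.single_eq_same, zsmul_eq_mul, mul_one]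
    · rw [Pi.single_eq_of_ne hg, Finsupp.single_eq_of_ne hg]; simp

theorem exists_eq_mul {x : MonoidAlgebra ℤ G} (h : ∀ g, (x.coeff g : ZMod p) = 0) :
    ∃ y : MonoidAlgebra ℤ G, x = p * y := by
  refine ⟨MonoidAlgebra.ofCoeff (x.coeff.mapRange (fun n => n / p) (by simp)), ?_⟩
  rw [← nsmul_eq_mul]
  apply MonoidAlgebra.coeff_injective
  ext g
  have h1 : (MonoidAlgebra.coeff (p • MonoidAlgebra.ofCoeff
      (x.coeff.mapRange (fun n => n / (p : ℤ)) (by simp)))) g = p • (x.coeff g / (p : ℤ)) := by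
    rw [MonoidAlgebra.coeff_smul]
    simp
  rw [h1, nsmul_eq_mul, Int.mul_ediv_cancel']
  exact (ZMod.intCast_zmod_eq_zero_iff_dvd _ _).mp (h g)

theorem appI_matE (e : FM G m p →+ FM G m p)
    (he : ∀ (g : G) f, e (g • f) = g • e f) (hee : ∀ f, e (e f) = e f) : AppI p (matE e) := by
  have hA : ∀ a : FM G 1 p, p • a = 0 := by
    intro a
    funext i x
    show p • (a i x) = 0
    rw [nsmul_eq_mul, CharP.cast_eq_zero, zero_mul]
  set D := matE e * matE e - matE e with hD
  have h1 : ∀ v : Fin m → FM G 1 p, mact (FM G 1 p) D v = 0 := by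
    intro v
    rw [hD, map_sub, map_mul]
    show mact _ (matE e) (mact _ (matE e) v) - mact _ (matE e) v = 0
    rw [mact_matE_comp hA e he hee, sub_self]
  have h2 : ∀ i j, ∃ y : MonoidAlgebra ℤ G, D i j = p * y := by
    intro i j
    refine exists_eq_mul fun g => ?_
    rw [← gact_dlt]
    have h3 := congrFun (h1 (Pi.single j (dlt 0 1))) i
    rw [mact_apply, Finset.sum_eq_single j, Pi.single_eq_same] at h3
    · rw [h3]; rfl
    · intro k _ hk
      rw [Pi.single_eq_of_ne hk, map_zero]
    · intro h; exact absurd (Finset.mem_univ _) h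
  choose N hN using h2
  let N' : Matrix (Fin m) (Fin m) (MonoidAlgebra ℤ G) := N
  refine ⟨N', ?_⟩
  rw [← hD, ← nsmul_eq_mul]
  refine Matrix.ext fun i j => ?_
  rw [hN, ← nsmul_eq_mul]
  rfl

section Hom

variable {X : Type*} [AddCommGroup X] [DistribMulAction G X]

theorem card_HomG (s : X →+ FM G m p) (r : FM G m p →+ X)
    (hs : ∀ (g : G) x, s (g • x) = g • s x) (hr : ∀ (g : G) f, r (g • f) = g • r f)
    (hrs : ∀ x, r (s x) = x) (hA : ∀ a : A, p • a = 0) :
    Nat.card (HomG G X A) = EK A p (matE (s.comp r)) := by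
  rw [EK_eq]
  have key : ∀ (ψ : HomG G X A) (f : FM G m p),
      Th hA (fun i => ψ.1 (r (dlt i 1))) f = ψ.1 (r f) := by
    intro ψ f
    show _ = (ψ.1.comp r) f
    rw [hom_eq (Th hA _), hom_eq (ψ.1.comp r)]
    refine Finset.sum_congr rfl fun i _ => Finset.sum_congr rfl fun h _ => ?_
    rw [Th_dlt]
    congr 1
    show h • ψ.1 (r (dlt i 1)) = ψ.1 (r (dlt i h))
    rw [← ψ.2, ← hr, smul_dlt, mul_one]
  refine Nat.card_congr
    { toFun := fun ψ => ⟨fun i => ψ.1 (r (dlt i 1)), fun i => hA _, ?_⟩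
      invFun := fun v => ⟨(Th hA v.1).comp s, ?_⟩
      left_inv := ?_
      right_inv := ?_ }
  · funext i
    rw [mact_matE hA, key]
    show ψ.1 (r (s (r (dlt i 1)))) = _
    rw [hrs]
  · intro g x
    show Th hA v.1 (s (g • x)) = g • Th hA v.1 (s x)
    rw [hs, Th_smul]
  · intro ψ
    apply Subtype.ext
    ext x
    show Th hA _ (s x) = ψ.1 x
    rw [key, hrs]
  · intro v
    apply Subtype.ext
    funext i
    show Th hA v.1 (s (r (dlt i 1))) = v.1 i
    have h1 := congrFun v.2.2 i
    rw [mact_matE hA] at h1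
    exact h1

end Hom

end Proj

end Fermat.Agent.EqDir
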