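import Fermat.Agent.CFT.Herbrand

set_option autoImplicit false
set_option maxHeartbeats 400000
set_option linter.style.haveILetI false

/-! Finite index from ranks. -/

namespace Fermat.Agent.EqDir

open Fermat.Agent.CFT

variable {A B : Type*} [AddCommGroup A] [AddCommGroup B]

theorem finite_of_finrank_eq_zero [Module.Finite ℤ A] (h : Module.finrank ℤ A = 0) : Finite A := by
  have h1 : Module.IsTorsion ℤ A := Module.finrank_eq_zero_iff_isTorsion.mp h
  exact Module.finite_of_fg_torsion A h1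

theorem finrank_eq_zero_of_finite [Finite A] : Module.finrank ℤ A = 0 := by
  haveI : Module.Finite ℤ A := Module.Finite.of_finite ..
  rw [Module.finrank_eq_zero_iff_isTorsion]
  intro x
  obtain ⟨n, hn, h⟩ := (isOfFinAddOrder_of_finite x).exists_nsmul_eq_zero
  refine ⟨⟨(n : ℤ), mem_nonZeroDivisors_of_ne_zero (by exact_mod_cast hn.ne')⟩, ?_⟩
  show (n : ℤ) • x = 0
  rw [natCast_zsmul, h]

theorem rank_identities (f : A →ₗ[ℤ] B) [Module.Finite ℤ A] [Module.Finite ℤ B] :
    Module.finrank ℤ (B ⧸ f.range) + Module.finrank ℤ A =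
      Module.finrank ℤ B + Module.finrank ℤ f.ker := by
  have h1 := Submodule.finrank_quotient_add_finrank (R := ℤ) f.range
  have h2 := f.quotKerEquivRange.finrank_eq
  have h3 := Submodule.finrank_quotient_add_finrank (R := ℤ) f.ker
  omega

theorem index_range_ne_zero_iff (f : A →+ B) [Module.Finite ℤ A] [Module.Finite ℤ B] :
    f.range.index ≠ 0 ↔ Module.finrank ℤ (B ⧸ f.toIntLinearMap.range) = 0 := by
  have h1 : f.range.index = Nat.card (B ⧸ f.toIntLinearMap.range) := rfl
  rw [h1]
  constructor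
  · intro h
    haveI : Finite (B ⧸ f.toIntLinearMap.range) := Nat.finite_of_card_ne_zero h
    exact finrank_eq_zero_of_finite
  · intro h
    haveI : Finite (B ⧸ f.toIntLinearMap.range) := finite_of_finrank_eq_zero h
    exact Nat.card_pos.ne'

theorem card_ker_ne_zero_iff (f : A →+ B) [Module.Finite ℤ A] [Module.Finite ℤ B] :
    Nat.card f.ker ≠ 0 ↔ Module.finrank ℤ f.toIntLinearMap.ker = 0 := by
  have h1 : Nat.card f.ker = Nat.card f.toIntLinearMap.ker := rfl
  rw [h1]
  constructor
  · intro h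
    haveI : Finite f.toIntLinearMap.ker := Nat.finite_of_card_ne_zero h
    exact finrank_eq_zero_of_finite
  · intro h
    haveI : Finite f.toIntLinearMap.ker := finite_of_finrank_eq_zero h
    exact Nat.card_pos.ne'

theorem finInd_of_ker (f : A →+ B) [Module.Finite ℤ A] [Module.Finite ℤ B]
    (h : Module.finrank ℤ B ≤ Module.finrank ℤ A) (hk : Nat.card f.ker ≠ 0) : FinInd f := by
  refine ⟨hk, ?_⟩
  rw [index_range_ne_zero_iff]
  rw [card_ker_ne_zero_iff] at hk
  have := rank_identities f.toIntLinearMap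
  omega

theorem finInd_of_coker (f : A →+ B) [Module.Finite ℤ A] [Module.Finite ℤ B]
    (h : Module.finrank ℤ A ≤ Module.finrank ℤ B) (hk : f.range.index ≠ 0) : FinInd f := by
  refine ⟨?_, hk⟩
  rw [card_ker_ne_zero_iff]
  rw [index_range_ne_zero_iff] at hk
  have := rank_identities f.toIntLinearMap
  omega

/-- a finitely generated group `Q` with `pQ = Q` is finite -/
theorem finite_of_surj {p : ℕ} (hp : 1 < p) {Q : Type*} [AddCommGroup Q] [Module.Finite ℤ Q]
    (h : ∀ x : Q, ∃ y : Q, x = p • y) : Finite Q := by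
  have h1 : (⊤ : Submodule ℤ Q) ≤ (Ideal.span {(p : ℤ)}) • (⊤ : Submodule ℤ Q) := by
    intro x _
    obtain ⟨y, rfl⟩ := h x
    have : (p : ℤ) • y ∈ (Ideal.span {(p : ℤ)}) • (⊤ : Submodule ℤ Q) :=
      Submodule.smul_mem_smul (Ideal.mem_span_singleton_self _) trivial
    rwa [natCast_zsmul] at this
  obtain ⟨r, hr, hr'⟩ := Submodule.exists_sub_one_mem_and_smul_eq_zero_of_fg_of_le_smul _ _
    Module.Finite.fg_top h1
  have hr0 : r ≠ 0 := by
    rintro rfl
    rw [Ideal.mem_span_singleton, zero_sub, dvd_neg] at hr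
    have := Int.eq_one_of_dvd_one (by positivity) hr
    omega
  apply Module.finite_of_fg_torsion
  intro x
  exact ⟨⟨r, mem_nonZeroDivisors_of_ne_zero hr0⟩, hr' x trivial⟩

theorem finInd_mulN [Module.Finite ℤ A] {n : ℕ} (hn : n ≠ 0) : FinInd (mulN A n) := by
  refine finInd_of_ker _ le_rfl ?_
  rw [card_ker_ne_zero_iff, Module.finrank_eq_zero_iff_isTorsion]
  rintro ⟨x, hx⟩
  refine ⟨⟨(n : ℤ), mem_nonZeroDivisors_of_ne_zero (by exact_mod_cast hn)⟩, ?_⟩
  have h1 : n • x = 0 := hx
  apply Subtype.ext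
  show (n : ℤ) • x = 0
  rw [natCast_zsmul, h1]

end Fermat.Agent.EqDir
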